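import Fermat.Agent.S35.N1

/-!
# S36: shared definitions for the end of the chain (no sorry in this file)

Level `N = q * (q * M)`, `q ∤ M`; `F = FN (q * (q * M))`, `F' = FN (q * M)`.

* `IsWq2 q M w` : `w` is the Atkin-Lehner involution `w_{q²}` of `ℚ̄(X₀(q² M))`;
* `AnData3 p q M w DN DM` : lattice maps induced by the two norms `F → F'` (`UU` and `UU ∘ w`);
* `GC q M w` : the geometric core (statement only).
-/

set_option autoImplicit false

namespace Fermat.Agent.S36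

open ModularCurve AlgebraicCurve HahnSeries Fermat.Agent.S24 Fermat.Agent.S18 Fermat.Agent.GR
open Fermat.Agent.S35

/-- `w` is the Atkin-Lehner involution `w_{q²}` of `ℚ̄(X₀(q² M))`. -/
structure IsWq2 (q M : ℕ) [NeZero q] (w : FN (q * (q * M)) ≃ₐ[Kb] FN (q * (q * M))) : Prop where
  invol : ∀ f, w (w f) = f
  gal : ∀ (σ : GQ) (f : FN (q * (q * M))),
    w (galF (q * (q * M)) σ f) = galF (q * (q * M)) σ (w f)
  incl : ∀ f : FN (q * (q * M)), (f : LaurentSeries Kb) ∈ FN M →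
    ((w f : FN (q * (q * M))) : LaurentSeries Kb) = qExpand Kb (q * q) (f : LaurentSeries Kb)
  mid : ∀ w' : FN (q * M) ≃ₐ[Kb] FN (q * M), IsWq q M w' → ∀ f' : FN (q * M),
    ((w (inclFN (Dvd.intro_left q rfl) f') : FN (q * (q * M))) : LaurentSeries Kb) =
      qExpand Kb q ((w' f' : FN (q * M)) : LaurentSeries Kb)

/-- Compatibility of analytic data at the levels `q² M` and `q M`: the lattice maps induced by the norm `UU`
(`= Norm` along `τ ↦ q τ`) and by `UU ∘ w`. -/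
structure AnData3 (p q M : ℕ) [NeZero q] [NeZero (q * M)] [NeZero (q * (q * M))]
    (w : FN (q * (q * M)) ≃ₐ[Kb] FN (q * (q * M))) (DN : AnData p (q * (q * M)))
    (DM : AnData p (q * M)) where
  trH : DN.H →+ DM.H
  trH' : DN.H →+ DM.H
  u_tr : ∀ n h, ∃ (ζ : Kbˣ) (x : FN (q * M)), IsPrimitiveRoot ζ q ∧
    UU ζ q ((DN.u n h : FN (q * (q * M))) : LaurentSeries Kb) =
      ((DM.u n (trH h) * x ^ (p ^ n) : FN (q * M)) : LaurentSeries Kb)
  u_tr' : ∀ n h, ∃ (ζ : Kbˣ) (x : FN (q * M)), IsPrimitiveRoot ζ q ∧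
    UU ζ q ((w (DN.u n h) : FN (q * (q * M))) : LaurentSeries Kb) =
      ((DM.u n (trH' h) * x ^ (p ^ n) : FN (q * M)) : LaurentSeries Kb)

/-- **The geometric core** (statement): an inertia invariant Kummer class at level `q² M` whose two norms to level `q M`
are trivial is killed by a bounded integer. -/
def GC (q M : ℕ) [NeZero q] (w : FN (q * (q * M)) ≃ₐ[Kb] FN (q * (q * M))) : Prop :=
  ∃ d : ℕ, 0 < d ∧ ∀ A : ValuationSubring Kb, A.LiesOverPrime q → ∀ m : ℕ, 0 < m → ¬ q ∣ m →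
    ∀ ζ : Kbˣ, IsPrimitiveRoot ζ q → ∀ u : FN (q * (q * M)), u ≠ 0 → DvdOrd (q * (q * M)) m u →
      (∃ x : FN (q * M), UU ζ q (u : LaurentSeries Kb) = (x : LaurentSeries Kb) ^ m) →
      (∃ x : FN (q * M),
        UU ζ q ((w u : FN (q * (q * M))) : LaurentSeries Kb) = (x : LaurentSeries Kb) ^ m) →
      (∀ τ ∈ A.inertiaSubgroupIn ℚ, ∃ z : FN (q * (q * M)), galF (q * (q * M)) τ u = u * z ^ m) →
      ∃ z : FN (q * (q * M)), u ^ d = z ^ m

end Fermat.Agent.S36
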