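import Fermat.Agent.S36.AN17Fam
import Fermat.Agent.S36.Defs16

/-!
# S36, analytic block (helper17), part 3: `w_{q²}` and the norm `UU` on Kummer elements; the deliverables

* `exists_isWq2`     : `w_{q²}` exists (in the shape `IsWq2` of `Defs16`);
* `exists_anFamily3` : ONE family of analytic data `D N` (all levels) with `S35.AnData2` for all `q ∥ N` and
                       `AnData3` for all `q² ∥ N`.
-/

set_option autoImplicit false

namespace Fermat.Agent.S36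

open UpperHalfPlane ModularForm Filter Topology CongruenceSubgroup ModularCurve AlgebraicCurve
open Fermat.Agent.S20 Fermat.Agent.S23 Fermat.Agent.S24 Fermat.Agent.S29 Fermat.Agent.S34
open Fermat.Agent.GR
open Fermat.Agent.S35 (Bez Fam UU)
open Matrix.SpecialLinearGroup
open scoped MatrixGroups Manifold ModularForm

variable {q M : ℕ} {m : ℕ}

theorem exists_isWq2 [NeZero (q * (q * M))] [NeZero q] (hq : q.Prime) (hqM : ¬ q ∣ M) :
    ∃ w : FN (q * (q * M)) ≃ₐ[Kb] FN (q * (q * M)), IsWq2 q M w := by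
  obtain ⟨w, -, h1, h2, h3, h4⟩ := exists_wq2 hq hqM
  refine ⟨w, h1, h2, h3, fun w' hw' f' => ?_⟩
  have hmem : ((Fermat.Agent.S18.inclFN (Dvd.intro_left q rfl) f' : FN (q * (q * M))) :
      LaurentSeries Kb) ∈ FN (q * M) := by
    rw [Fermat.Agent.S18.coe_inclFN]; exact f'.2
  have e : (⟨((Fermat.Agent.S18.inclFN (Dvd.intro_left q rfl) f' : FN (q * (q * M))) :
      LaurentSeries Kb), hmem⟩ : FN (q * M)) = f' :=
    Subtype.ext (Fermat.Agent.S18.coe_inclFN (Dvd.intro_left q rfl) f')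
  have h := h4 (Fermat.Agent.S18.inclFN (Dvd.intro_left q rfl) f') hmem w' hw'
  rw [e] at h
  exact h

theorem IsWq2.toW2 [NeZero (q * M)] [NeZero q] {w : FN (q * (q * M)) ≃ₐ[Kb] FN (q * (q * M))}
    (hw : IsWq2 q M w) (hq : q.Prime) (hqM : ¬ q ∣ M) : IsW2 q M w.toAlgHom := by
  intro d _ _ _ hd f
  have hA : ∀ f : FN (q * (q * M)), (f : LaurentSeries Kb) = jd d →
      ((w f : FN (q * (q * M))) : LaurentSeries Kb) = jd (q * q * d) := by
    intro f hf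
    rw [hw.incl f (by rw [hf]; exact jd_mem hd), hf, qExpand_jd]
  refine ⟨hA f, fun hf => ?_, fun hf => ?_⟩
  · obtain ⟨w', h1, h2, h3, h4⟩ := exists_wq (q := q) (M := M) hq hqM
    have hw' : Fermat.Agent.S35.IsWq q M w' := ⟨h1, h2, h3⟩
    have hmem : jd (q * d) ∈ FN (q * M) := jd_mem (Nat.mul_dvd_mul_left _ hd)
    have hf' : f = Fermat.Agent.S18.inclFN (Dvd.intro_left q rfl) (⟨jd (q * d), hmem⟩ : FN (q * M)) := by
      apply Subtype.ext
      rw [Fermat.Agent.S18.coe_inclFN, hf]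
    show ((w f : FN (q * (q * M))) : LaurentSeries Kb) = _
    rw [hf', hw.mid w' hw', h4 ⟨jd (q * d), hmem⟩ (jd d) (jd_mem hd) (qExpand_jd q d).symm,
      qExpand_jd]
  · have h1 : w ⟨jd d, jd_mem (dvd_A hd)⟩ = f := Subtype.ext (by rw [hA _ rfl, hf])
    show ((w f : FN (q * (q * M))) : LaurentSeries Kb) = _
    rw [← h1, hw.invol]

theorem famW2_P [Fact q.Prime] (B : Bez (q * q) M) (k : ℤ) (E : ℍ → ℂ) :
    (famW2 B).P k E = E ∣[k] W2 B := by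
  simp [Fam.P, famW2]

open Fermat.Agent.S35 in
theorem iotaL_w2_mul [Fact q.Prime] [NeZero (q * (q * M))] (B : Bez (q * q) M)
    {w : FN (q * (q * M)) →ₐ[Kb] FN (q * (q * M))} (hw : IsW2 q M w)
    {χ χ' : Gamma0 (q * (q * M)) →* ℂˣ} (hχpar : IsPar (q * (q * M)) χ)
    (hχ' : (famW2 B).IsTr χ χ') (hχ'par : IsPar (q * (q * M)) χ') {k : ℤ} {E D : ℍ → ℂ}
    (hE : E ∈ Mchi (Gamma0 (q * (q * M))) χ k)
    (hD : D ∈ MFs (Gamma0 (q * (q * M))) k) (hD0 : D ≠ 0) {u : FN (q * (q * M))}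
    (hu : iotaL (u : LaurentSeries Kb) * qLf D ^ m = qLf E ^ m) :
    iotaL (w u : LaurentSeries Kb) * qLf ((famW2 B).P k D) ^ m = qLf ((famW2 B).P k E) ^ m := by
  have hdet : 0 < (W2 B).det.val := det_W2 B
  have nE : E ∈ Nice := mem_Nice_of_mem_Mchi (kum_hT hχpar) hE
  have nD : D ∈ Nice := mem_Nice_of_mem_MFs_Gamma0 hD
  have nE' : (famW2 B).P k E ∈ Nice :=
    mem_Nice_of_mem_Mchi (kum_hT hχ'par) ((famW2 B).P_mem_Mchi hχ' hE)
  have nD' : (famW2 B).P k D ∈ Nice := mem_Nice_of_mem_MFs_Gamma0 ((famW2 B).P_mem_MFs hD)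
  have hD0' : (famW2 B).P k D ≠ 0 := (famW2 B).P_ne_zero hD.1 hD0
  rw [← qLf_pow nD', ← qLf_pow nE']
  refine rel_transport hdet (rel_of_isW2 B hw u) (pow_mem nE m) (pow_mem nD m) (pow_mem nE' m)
    (pow_mem nD' m) (kum_pow_ne_zero nD hD0 m) (kum_pow_ne_zero nD' hD0' m) ?_ ?_
  · rw [qLf_pow nD, qLf_pow nE]; exact hu
  · intro z
    simp only [Pi.pow_apply, famW2_P]
    rw [kum_slash_pos hdet, kum_slash_pos hdet]
    ring

open Fermat.Agent.S35 in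
/-- **K1'.**  `w_{q²}` maps a Kummer element of `χ` to a Kummer element of `χ^W`. -/
theorem isKumChi_w2 [Fact q.Prime] [NeZero (q * (q * M))] (B : Bez (q * q) M)
    {w : FN (q * (q * M)) →ₐ[Kb] FN (q * (q * M))} (hw : IsW2 q M w) (hm : 0 < m)
    {χ ψ : Gamma0 (q * (q * M)) →* ℂˣ} (hψ : (famW2 B).IsTr χ ψ) (hψm : ψ ^ m = 1)
    (hψpar : IsPar (q * (q * M)) ψ) {u : FN (q * (q * M))} (h : IsKumChi (q * (q * M)) m χ u) :
    IsKumChi (q * (q * M)) m ψ (w u) := by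
  obtain ⟨-, hpar, k, E, D, hE, hD, hE0, hD0, hu⟩ := h
  obtain ⟨hs, hk⟩ := isKumChi_of_forms hm hψm hψpar ((famW2 B).P_mem_Mchi hψ hE)
    ((famW2 B).P_mem_MFs hD) ((famW2 B).P_ne_zero hE.1 hE0) ((famW2 B).P_ne_zero hD.1 hD0)
    (iotaL_w2_mul B hw hpar hψ hψpar hE hD hD0 hu)
  exact hk

theorem P_famU_eq [Fact q.Prime] [NeZero q] (k : ℤ) :
    ∃ c : ℂ, c ≠ 0 ∧ ∀ E : ℍ → ℂ, (famU q M).P k E = c • brP q E := by
  have hq : q.Prime := Fact.out
  have hqC : (q : ℂ) ≠ 0 := by exact_mod_cast hq.ne_zero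
  refine ⟨((q : ℂ)⁻¹) ^ q, pow_ne_zero _ (inv_ne_zero hqC), fun E => ?_⟩
  funext z
  have h1 : (famU q M).P k E z = ∏ x : ZMod q, (E ∣[k] heckeMatrix q x.val) z := by
    rw [Fam.P, Finset.prod_apply]
    rfl
  rw [h1]
  simp_rw [slash_heckeMatrix_apply k hq.ne_zero]
  rw [Finset.prod_mul_distrib, Finset.prod_const, Finset.card_univ, ZMod.card, Pi.smul_apply,
    smul_eq_mul, brP,
    Fermat.Agent.S28.NormForm.prod_range_eq_prod_zmod q (fun j => E (heckeMatrix q j • z))]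

open Fermat.Agent.S35 in
/-- **K2'.**  the norm `∏_b u(ζ^b t^(1/q))` of a Kummer element of `χ` (level `q² M`) is a Kummer element (level `q M`)
of the transfer of `χ`. -/
theorem isKumChi_U [Fact q.Prime] [NeZero q] [NeZero (q * (q * M))] [NeZero (q * M)] (hm : 0 < m)
    {χ : Gamma0 (q * (q * M)) →* ℂˣ}
    {ψ : Gamma0 (q * M) →* ℂˣ} (hψ : (famU q M).IsTr χ ψ) (hψm : ψ ^ m = 1)
    (hψpar : IsPar (q * M) ψ) {u : FN (q * (q * M))} (h : IsKumChi (q * (q * M)) m χ u)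
    {ζ : Kbˣ} (hζ : IsPrimitiveRoot ζ q) :
    ∃ hs : UU ζ q (u : LaurentSeries Kb) ∈ FN (q * M), IsKumChi (q * M) m ψ ⟨_, hs⟩ := by
  obtain ⟨-, hpar, k, E, D, hE, hD, hE0, hD0, hu⟩ := h
  obtain ⟨c, -, hc⟩ := P_famU_eq (q := q) (M := M) k
  have nE : E ∈ Nice := mem_Nice_of_mem_Mchi (kum_hT hpar) hE
  have nD : D ∈ Nice := mem_Nice_of_mem_MFs_Gamma0 hD
  have hζc : IsPrimitiveRoot (Fermat.Agent.S28.zetaC q) q := Fermat.Agent.S28.isPrimitiveRoot_zetaC q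
  have hζi : IsPrimitiveRoot (Units.map (iota : Kb →* ℂ) ζ) q :=
    hζ.map_of_injective (Units.map_injective iota_injective)
  have h2 := congrArg (fun X => Uop q (Pop (Fermat.Agent.S28.zetaC q) q X)) hu
  beta_reduce at h2
  rw [Uop_Pop_mul hζc, kum_UU_pow hζc, kum_UU_pow hζc] at h2
  have key : iotaL (UU ζ q (u : LaurentSeries Kb)) *
      qLf ((famU q M).P k D) ^ m = qLf ((famU q M).P k E) ^ m := by
    rw [hc D, hc E, qLf_smul _ (brP_mem nD), qLf_smul _ (brP_mem nE), qLf_brP nD, qLf_brP nE]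
    have h3 : iotaL (UU ζ q (u : LaurentSeries Kb))
        = Uop q (Pop (Fermat.Agent.S28.zetaC q) q (iotaL (u : LaurentSeries Kb))) := by
      rw [UU, iotaL, coeffMap_Uop, coeffMap_Pop, Pop_eq_of_isPrimitiveRoot hζi hζc]
    rw [h3, ← HahnSeries.C_mul_eq_smul, ← HahnSeries.C_mul_eq_smul, mul_pow, mul_pow, ← h2]
    ring
  exact isKumChi_of_forms hm hψm hψpar ((famU q M).P_mem_Mchi hψ hE)
    ((famU q M).P_mem_MFs hD) ((famU q M).P_ne_zero hE.1 hE0)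
    ((famU q M).P_ne_zero hD.1 hD0) key

open Fermat.Agent.S35 in
/-- **AN3.**  ONE family of analytic data `D N` (all levels), compatible with the norms at all `q ∥ N` (`S35.AnData2`) and
at all `q² ∥ N` (`AnData3`). -/
theorem exists_anFamily3 (p : ℕ) [Fact p.Prime] :
    ∃ D : ∀ (N : ℕ) [NeZero N], AnData p N,
      (∀ (q M : ℕ) [NeZero q] [NeZero M] [NeZero (q * M)], q.Prime → ¬ q ∣ M →
        ∀ w : FN (q * M) ≃ₐ[Kb] FN (q * M), Fermat.Agent.S35.IsWq q M w →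
          Nonempty (AnData2 p q M w (D (q * M)) (D M))) ∧
      (∀ (q M : ℕ) [NeZero q] [NeZero (q * M)] [NeZero (q * (q * M))], q.Prime → ¬ q ∣ M →
        ∀ w : FN (q * (q * M)) ≃ₐ[Kb] FN (q * (q * M)), IsWq2 q M w →
          Nonempty (AnData3 p q M w (D (q * (q * M))) (D (q * M)))) := by
  classical
  have hp : 0 < p := (Fact.out : p.Prime).pos
  have hpn : ∀ n : ℕ, 0 < p ^ n := fun n => pow_pos hp n
  choose U hU using fun (N : ℕ) (hN : NeZero N) (n : ℕ) (h : HLat N) => exists_isKumL (hpn n) h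
  refine ⟨fun N hN => anDataOf p N (U N hN) (hU N hN), ?_, ?_⟩
  · intro q M iq iM iqM hq hqM w hw
    have : Fact q.Prime := ⟨hq⟩
    obtain ⟨B⟩ := exists_bez hq hqM
    obtain ⟨wH, hwH⟩ := (famW B).exists_H
    obtain ⟨trH, htrH⟩ := (famTr B hqM).exists_H
    have hw' := hw.toS34
    obtain ⟨ζ₀, hζ₀⟩ := HasEnoughRootsOfUnity.exists_primitiveRoot Kb q
    set ζ : Kbˣ := hζ₀.isUnit (NeZero.ne q) |>.unit with hζdef
    have hζ : IsPrimitiveRoot ζ q := by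
      rw [← IsPrimitiveRoot.coe_units_iff]; exact hζ₀
    have key1 : ∀ n (h : HLat (q * M)), ∃ v : FN (q * M),
        w (U (q * M) iqM n h) = U (q * M) iqM n (wH h) * v ^ (p ^ n) := by
      intro n h
      obtain ⟨χ, hχ, hu⟩ := hU (q * M) iqM n h
      obtain ⟨ψ, hψ⟩ := exists_isChiOf (p ^ n) (wH h)
      have h1 : IsKumL (p ^ n) (wH h) (w.toAlgHom (U (q * M) iqM n h)) :=
        ⟨ψ, hψ, isKumChi_w B hw' (hpn n) (hwH _ _ _ _ hχ hψ) (hψ.pow_eq_one (hpn n)) hψ.isPar hu⟩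
      obtain ⟨v, -, hv⟩ := (hU (q * M) iqM n (wH h)).unique (hpn n) h1
      exact ⟨v, hv⟩
    have key2 : ∀ n (h : HLat (q * M)), ∃ v : FN M,
        N1 w ζ (U (q * M) iqM n h) = ((U M iM n (trH h) * v ^ (p ^ n) : FN M) : LaurentSeries Kb) := by
      intro n h
      obtain ⟨χ, hχ, hu⟩ := hU (q * M) iqM n h
      obtain ⟨χ', hχ'⟩ := exists_isChiOf (p ^ n) (wH h)
      obtain ⟨ψ, hψ⟩ := exists_isChiOf (p ^ n) (trH h)
      obtain ⟨hs, hk⟩ := isKumChi_norm B hqM hw' (hpn n) (hwH _ _ _ _ hχ hχ') hχ'.isPar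
        (htrH _ _ _ _ hχ hψ) (hψ.pow_eq_one (hpn n)) hψ.isPar hu hζ
      obtain ⟨v, -, hv⟩ := (hU M iM n (trH h)).unique (hpn n) ⟨ψ, hψ, hk⟩
      exact ⟨v, congrArg Subtype.val hv⟩
    refine ⟨{ trH := trH.toAddMonoidHom, trH' := (trH.comp wH).toAddMonoidHom, u_tr := ?_, u_tr' := ?_ }⟩
    · intro n h
      obtain ⟨v, hv⟩ := key2 n h
      exact ⟨ζ, v, hζ, hv⟩
    · intro n h
      obtain ⟨v, hv⟩ := key1 n h
      obtain ⟨x, hx⟩ := key2 n (wH h)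
      refine ⟨ζ, x * ⟨N1 w ζ v, N1_mem hw hζ hq hqM v⟩, hζ, ?_⟩
      show N1 w ζ (w (U (q * M) iqM n h)) = _
      rw [hv, N1_mul hζ, N1_pow hζ, hx]
      show _ = ((U M iM n (trH (wH h)) * (x * ⟨N1 w ζ v, N1_mem hw hζ hq hqM v⟩) ^ (p ^ n) : FN M) :
        LaurentSeries Kb)
      rw [mul_pow, ← mul_assoc]
      rfl
  · intro q M iq iqM iqqM hq hqM w hw
    have : Fact q.Prime := ⟨hq⟩
    obtain ⟨B⟩ := exists_bez2 hq hqM
    obtain ⟨wH, hwH⟩ := (famW2 B).exists_H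
    obtain ⟨trH, htrH⟩ := (famU q M).exists_H
    have hw' := hw.toW2 hq hqM
    obtain ⟨ζ₀, hζ₀⟩ := HasEnoughRootsOfUnity.exists_primitiveRoot Kb q
    set ζ : Kbˣ := hζ₀.isUnit (NeZero.ne q) |>.unit with hζdef
    have hζ : IsPrimitiveRoot ζ q := by
      rw [← IsPrimitiveRoot.coe_units_iff]; exact hζ₀
    have key1 : ∀ n (h : HLat (q * (q * M))),
        IsKumL (p ^ n) (wH h) (w.toAlgHom (U (q * (q * M)) iqqM n h)) := by
      intro n h
      obtain ⟨χ, hχ, hu⟩ := hU (q * (q * M)) iqqM n h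
      obtain ⟨ψ, hψ⟩ := exists_isChiOf (p ^ n) (wH h)
      exact ⟨ψ, hψ, isKumChi_w2 B hw' (hpn n) (hwH _ _ _ _ hχ hψ) (hψ.pow_eq_one (hpn n))
        hψ.isPar hu⟩
    have key2 : ∀ n (h : HLat (q * (q * M))) (u : FN (q * (q * M))), IsKumL (p ^ n) h u →
        ∃ v : FN (q * M), UU ζ q (u : LaurentSeries Kb) =
          ((U (q * M) iqM n (trH h) * v ^ (p ^ n) : FN (q * M)) : LaurentSeries Kb) := by
      intro n h u hu'
      obtain ⟨χ, hχ, hu⟩ := hu'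
      obtain ⟨ψ, hψ⟩ := exists_isChiOf (p ^ n) (trH h)
      obtain ⟨hs, hk⟩ := isKumChi_U (hpn n) (htrH _ _ _ _ hχ hψ) (hψ.pow_eq_one (hpn n))
        hψ.isPar hu hζ
      obtain ⟨v, -, hv⟩ := (hU (q * M) iqM n (trH h)).unique (hpn n) ⟨ψ, hψ, hk⟩
      exact ⟨v, congrArg Subtype.val hv⟩
    refine ⟨{ trH := trH.toAddMonoidHom, trH' := (trH.comp wH).toAddMonoidHom, u_tr := ?_, u_tr' := ?_ }⟩
    · intro n h
      obtain ⟨v, hv⟩ := key2 n h _ (hU (q * (q * M)) iqqM n h)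
      exact ⟨ζ, v, hζ, hv⟩
    · intro n h
      obtain ⟨v, hv⟩ := key2 n (wH h) _ (key1 n h)
      exact ⟨ζ, v, hζ, hv⟩

end Fermat.Agent.S36
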