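import Fermat.Agent.S36.AN17
import Fermat.Agent.S35.EqvH

/-!
# S36, analytic block (helper17), part 4: `UU` maps `FN (q * (q * M))` to `FN (q * M)`; Hecke equivariance of `trH`, `trH'`
-/

set_option autoImplicit false

namespace Fermat.Agent.S36

open UpperHalfPlane ModularForm Filter Topology CongruenceSubgroup ModularCurve AlgebraicCurve
open Fermat.Agent.S20 Fermat.Agent.S23 Fermat.Agent.S24 Fermat.Agent.S29 Fermat.Agent.S34
open Fermat.Agent.GR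
open Fermat.Agent.S35 (Bez Fam UU)
open scoped MatrixGroups Manifold ModularForm

variable {q M : ℕ}

theorem isKumChi_one_of_ne_zero {N : ℕ} [NeZero N] {u : FN N} (hu : u ≠ 0) :
    IsKumChi N 1 1 u := by
  obtain ⟨k, G, D, hG, hD, hD0, h⟩ := isQuot_of_mem N u.2
  have nD : D ∈ Nice := mem_Nice_of_mem_MFs_Gamma0 hD
  refine ⟨by ext g; simp, fun _ _ _ => rfl, k, G, D, by rw [Mchi_one]; exact hG, hD, ?_, hD0, ?_⟩
  · rintro rfl
    rw [qLf_zero] at h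
    have h1 : qLf D ≠ 0 := fun h0 => hD0 ((qLf_eq_zero_iff nD).mp h0)
    have h2 : iotaL (u : LaurentSeries Kb) = 0 := (mul_eq_zero.mp h).resolve_right h1
    apply hu
    apply Subtype.ext
    exact (map_eq_zero iotaL).mp h2
  · rw [pow_one, pow_one]; exact h

/-- `UU` maps `ℚ̄(X₀(q² M))` to `ℚ̄(X₀(q M))`. -/
theorem UU_mem [NeZero q] [NeZero (q * (q * M))] [NeZero (q * M)] (hq : q.Prime) {ζ : Kbˣ}
    (hζ : IsPrimitiveRoot ζ q) (f : FN (q * (q * M))) :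
    UU ζ q (f : LaurentSeries Kb) ∈ FN (q * M) := by
  have : Fact q.Prime := ⟨hq⟩
  by_cases hf : f = 0
  · subst hf
    have h0 : UU ζ q (0 : LaurentSeries Kb) = 0 := by
      have := Fermat.Agent.S35.UU_C ζ q (0 : Kb)
      rwa [map_zero, zero_pow (NeZero.ne q), map_zero] at this
    show UU ζ q (0 : LaurentSeries Kb) ∈ FN (q * M)
    rw [h0]
    exact zero_mem _
  · obtain ⟨hs, -⟩ := isKumChi_U (m := 1) one_pos ((famU q M).isTr_one) (by ext g; simp)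
      (fun _ _ _ => rfl) (isKumChi_one_of_ne_zero hf) hζ
    exact hs

/-- the norm `UU` as a multiplicative map. -/
noncomputable def nuU [NeZero q] [NeZero (q * (q * M))] [NeZero (q * M)] (hq : q.Prime) {ζ : Kbˣ}
    (hζ : IsPrimitiveRoot ζ q) : FN (q * (q * M)) →* FN (q * M) where
  toFun f := ⟨UU ζ q (f : LaurentSeries Kb), UU_mem hq hζ f⟩
  map_one' := Subtype.ext (Fermat.Agent.S35.UU_one ζ q)
  map_mul' f g := Subtype.ext (Fermat.Agent.S35.UU_mul hζ f g)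

theorem coe_nuU [NeZero q] [NeZero (q * (q * M))] [NeZero (q * M)] (hq : q.Prime) {ζ : Kbˣ}
    (hζ : IsPrimitiveRoot ζ q) (f : FN (q * (q * M))) :
    ((nuU hq hζ f : FN (q * M)) : LaurentSeries Kb) = UU ζ q (f : LaurentSeries Kb) := rfl

theorem nuU_galF [NeZero q] [NeZero (q * (q * M))] [NeZero (q * M)] (hq : q.Prime) {ζ : Kbˣ}
    (hζ : IsPrimitiveRoot ζ q) (σ : GQ) (f : FN (q * (q * M))) :
    nuU hq hζ (galF (q * (q * M)) σ f) = galF (q * M) σ (nuU hq hζ f) := by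
  apply Subtype.ext
  rw [coe_nuU, coe_galF, coe_galF, coe_nuU, Fermat.Agent.S35.coeffMap_gal_UU hζ]

variable {p : ℕ} [Fact p.Prime] [NeZero q] [NeZero (q * M)] [NeZero (q * (q * M))]
  {w : FN (q * (q * M)) ≃ₐ[Kb] FN (q * (q * M))} {DN : AnData p (q * (q * M))}
  {DM : AnData p (q * M)}

theorem AnData3.trH_T (D3 : AnData3 p q M w DN DM) (hq : q.Prime)
    {ℓ : ℕ} (hℓ : ℓ.Prime) (hℓN : ¬ ℓ ∣ q * (q * M)) (hℓM : ¬ ℓ ∣ q * M) (hℓp : ℓ ≠ p) (h : DN.H) :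
    D3.trH (DN.actH (CuspForm.heckeAlgebra.T hℓ hℓN (Set.notMem_empty ℓ)) h) =
      DM.actH (CuspForm.heckeAlgebra.T hℓ hℓM (Set.notMem_empty ℓ)) (D3.trH h) := by
  obtain ⟨z, hz⟩ := Fermat.Agent.S35.EqvH.exists_prim q
  refine Fermat.Agent.S35.EqvH.eqv_abs DN DM (nuU hq hz) (nuU_galF hq hz) D3.trH ?_
    hℓ hℓN hℓM hℓp h
  intro n h
  obtain ⟨ζ, x, hζ, hx⟩ := D3.u_tr n h
  refine ⟨x, Subtype.ext ?_⟩
  rw [coe_nuU, Fermat.Agent.S35.UU_eq_of_isPrimitiveRoot hz hζ, hx]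

theorem AnData3.trH'_T (D3 : AnData3 p q M w DN DM) (hq : q.Prime) (hw : IsWq2 q M w)
    {ℓ : ℕ} (hℓ : ℓ.Prime) (hℓN : ¬ ℓ ∣ q * (q * M)) (hℓM : ¬ ℓ ∣ q * M) (hℓp : ℓ ≠ p) (h : DN.H) :
    D3.trH' (DN.actH (CuspForm.heckeAlgebra.T hℓ hℓN (Set.notMem_empty ℓ)) h) =
      DM.actH (CuspForm.heckeAlgebra.T hℓ hℓM (Set.notMem_empty ℓ)) (D3.trH' h) := by
  obtain ⟨z, hz⟩ := Fermat.Agent.S35.EqvH.exists_prim q
  refine Fermat.Agent.S35.EqvH.eqv_abs DN DM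
    ((nuU hq hz).comp (w : FN (q * (q * M)) →* FN (q * (q * M)))) ?_ D3.trH' ?_ hℓ hℓN hℓM hℓp h
  · intro σ f
    show nuU hq hz (w (galF (q * (q * M)) σ f)) = galF (q * M) σ (nuU hq hz (w f))
    rw [hw.gal, nuU_galF]
  · intro n h
    obtain ⟨ζ, x, hζ, hx⟩ := D3.u_tr' n h
    refine ⟨x, Subtype.ext ?_⟩
    show ((nuU hq hz (w (DN.u n h)) : FN (q * M)) : LaurentSeries Kb) = _
    rw [coe_nuU, Fermat.Agent.S35.UU_eq_of_isPrimitiveRoot hz hζ, hx]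

end Fermat.Agent.S36
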