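import Fermat.Agent.S36.AN17W

/-!
# S36, analytic block (helper17), part 2: the families `famW2` (Atkin-Lehner `w_{q²}`) and `famU` (`{[1, b; 0, q]}`,
the norm of the degeneracy map `τ ↦ q τ`, `X₀(q² M) → X₀(q M)`)
-/

set_option autoImplicit false

namespace Fermat.Agent.S36

open UpperHalfPlane ModularForm Filter Topology CongruenceSubgroup ModularCurve
open Fermat.Agent.S20 Fermat.Agent.S23 Fermat.Agent.S24 Fermat.Agent.S29 Fermat.Agent.S34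
open Fermat.Agent.S35 (Bez Fam)
open Fermat.Agent.S35.Inst
open Matrix.SpecialLinearGroup
open P2MW.S_ModularForm_heckeT_slash_eq_self_of_mem_Gamma0.ModularForm.HeckeSlashInvariance
open scoped MatrixGroups Manifold ModularForm

/-- `δ` maps cusps to cusps. -/
def CuspP (δ : GL (Fin 2) ℝ) : Prop :=
  ∀ g : SL(2, ℤ), ∃ (g' : SL(2, ℤ)) (τ : GL (Fin 2) ℝ), τ 1 0 = 0 ∧
    δ * mapGL ℝ g = mapGL ℝ g' * τ

theorem CuspP.mul {δ δ' : GL (Fin 2) ℝ} (h : CuspP δ) (h' : CuspP δ') : CuspP (δ * δ') := by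
  intro g
  obtain ⟨g₁, τ₁, h₁, e₁⟩ := h' g
  obtain ⟨g₂, τ₂, h₂, e₂⟩ := h g₁
  refine ⟨g₂, τ₂ * τ₁, ?_, ?_⟩
  · show ((τ₂ * τ₁ : GL (Fin 2) ℝ) : Matrix (Fin 2) (Fin 2) ℝ) 1 0 = 0
    rw [Matrix.GeneralLinearGroup.coe_mul, Matrix.mul_apply, Fin.sum_univ_two]
    have h₁' : (τ₁ : Matrix (Fin 2) (Fin 2) ℝ) 1 0 = 0 := h₁
    have h₂' : (τ₂ : Matrix (Fin 2) (Fin 2) ℝ) 1 0 = 0 := h₂
    rw [h₁', h₂']
    ring
  · rw [mul_assoc, e₁, ← mul_assoc, e₂, mul_assoc]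

theorem cuspP_mapGL (γ : SL(2, ℤ)) : CuspP (mapGL ℝ γ) :=
  fun g => ⟨γ * g, 1, rfl, by rw [map_mul, mul_one]⟩

theorem cuspP_heckeRep {q : ℕ} [Fact q.Prime] (x : OnePoint (ZMod q)) : CuspP (heckeRep q x) := by
  intro g
  obtain ⟨g', hg'⟩ := Fermat.Agent.S29.HK.exists_g' (ℓ := q) g
  exact ⟨g' x, heckeRep q (redMatrix q g • x), Fermat.Agent.S28.NormForm.heckeRep_one_zero q _,
    hg' x⟩

variable {q M : ℕ}

theorem coe_W2 [Fact q.Prime] (B : Bez (q * q) M) :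
    ((W2 B : GL (Fin 2) ℝ) : Matrix (Fin 2) (Fin 2) ℝ) =
      !![((q * q : ℕ) : ℝ), (B.b : ℝ); ((q * q * M : ℕ) : ℝ), ((q * q : ℕ) : ℝ) * B.c] := rfl

theorem W2_eq [Fact q.Prime] (B : Bez (q * q) M) :
    W2 B = mapGL ℝ B.gam * (heckeDiagMatrix q * heckeDiagMatrix q) := by
  apply Units.ext
  rw [Matrix.GeneralLinearGroup.coe_mul, Matrix.GeneralLinearGroup.coe_mul, coe_W2,
    val_heckeDiagMatrix (Fact.out : q.Prime).ne_zero, coe_mapGL_eq]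
  have h00 : B.gam 0 0 = 1 := rfl
  have h01 : B.gam 0 1 = B.b := rfl
  have h10 : B.gam 1 0 = M := rfl
  have h11 : B.gam 1 1 = ((q * q : ℕ) : ℤ) * B.c := rfl
  rw [h00, h01, h10, h11]
  ext a b
  fin_cases a <;> fin_cases b <;> simp [Matrix.mul_apply, Fin.sum_univ_two] <;> ring

theorem cuspP_W2 [Fact q.Prime] (B : Bez (q * q) M) : CuspP (W2 B) := by
  rw [W2_eq]
  exact (cuspP_mapGL _).mul ((cuspP_heckeRep (q := q) OnePoint.infty).mul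
    (cuspP_heckeRep (q := q) OnePoint.infty))

theorem W2_ex' [Fact q.Prime] (B : Bez (q * q) M) (γ : SL(2, ℤ)) (hγ : γ ∈ Gamma0 (q * (q * M))) :
    ∃ γ' ∈ Gamma0 (q * (q * M)), W2 B * mapGL ℝ γ = mapGL ℝ γ' * W2 B := by
  rw [mem_Gamma0_iff] at hγ
  obtain ⟨c', hc'⟩ := hγ
  have hdet := Fermat.Agent.S35.Inst.det_eq γ
  have hB := B.h
  rw [hc'] at hdet
  push_cast at hdet hc' hB
  refine ⟨mkSL ((q * q : ℤ) * γ 0 0 * B.c + B.b * (q * q) * M * c' * B.c - (q * q) * γ 0 1 * M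
      - B.b * γ 1 1 * M)
    (-γ 0 0 * B.b - B.b ^ 2 * M * c' + (q * q) * γ 0 1 + B.b * γ 1 1)
    ((q * q : ℤ) * M * (γ 0 0 * B.c + (q * q) * B.c ^ 2 * c' - M * γ 0 1 - B.c * γ 1 1))
    (-(M : ℤ) * γ 0 0 * B.b - B.c * (q * q) * M * c' * B.b + (q * q) * M * γ 0 1
      + (q * q) * B.c * γ 1 1) ?_, ?_, ?_⟩
  · linear_combination ((q * q : ℤ) * B.c - M * B.b + 1) *
      (γ 0 0 * γ 1 1 - γ 0 1 * (q * q * M * c')) * hB + hdet
  · rw [mem_Gamma0_iff]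
    show ((q * (q * M) : ℕ) : ℤ) ∣
      ((q * q : ℤ) * M * (γ 0 0 * B.c + (q * q) * B.c ^ 2 * c' - M * γ 0 1 - B.c * γ 1 1))
    push_cast
    rw [← mul_assoc]
    exact Dvd.intro _ rfl
  · apply Units.ext
    rw [Matrix.GeneralLinearGroup.coe_mul, Matrix.GeneralLinearGroup.coe_mul, coe_W2,
      coe_mapGL_eq, coe_mapGL_mkSL]
    have hc'' : (γ 1 0 : ℝ) = (q : ℝ) * (q * M) * (c' : ℝ) := by exact_mod_cast hc'
    have hB' : (q : ℝ) * q * B.c - M * B.b = 1 := by exact_mod_cast hB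
    rw [hc'']
    ext i j
    fin_cases i <;> fin_cases j <;> simp [Matrix.mul_apply, Fin.sum_univ_two]
    · linear_combination (-((q : ℝ) * q) * γ 0 0 - (B.b : ℝ) * (q * q) * M * c') * hB'
    · linear_combination (-(((q : ℝ) * q) * γ 0 1 + (B.b : ℝ) * γ 1 1)) * hB'
    · linear_combination (-(((q : ℝ) * q) * M * (γ 0 0 + ((q : ℝ) * q) * B.c * c'))) * hB'
    · linear_combination (-(((q : ℝ) * q) * M * γ 0 1 + ((q : ℝ) * q) * B.c * γ 1 1)) * hB'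

/-- the Atkin-Lehner family for `w_{q²}`. -/
noncomputable def famW2 [Fact q.Prime] (B : Bez (q * q) M) :
    Fam (q * (q * M)) (q * (q * M)) Unit where
  δ _ := W2 B
  det_pos _ := det_W2 B
  ex g := by
    obtain ⟨g', h1, h2⟩ := W2_ex' B g g.2
    exact ⟨1, fun _ => ⟨g', h1⟩, fun _ => h2⟩
  cusp g _ := cuspP_W2 B g

/-- the family `{[1, b; 0, q]}`: the norm of `τ ↦ q τ`, `X₀(q² M) → X₀(q M)`. -/
noncomputable def famU (q M : ℕ) [Fact q.Prime] : Fam (q * (q * M)) (q * M) (ZMod q) where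
  δ x := heckeMatrix q x.val
  det_pos x := by
    rw [det_heckeMatrix (Fact.out : q.Prime).ne_zero]
    exact_mod_cast (Fact.out : q.Prime).pos
  ex g := by
    have hcN : ((q * M : ℕ) : ℤ) ∣ (g : SL(2, ℤ)) 1 0 := mem_Gamma0_iff.mp g.2
    have hc : (q : ℤ) ∣ (g : SL(2, ℤ)) 1 0 := by
      refine dvd_trans ?_ hcN
      push_cast
      exact Dvd.intro _ rfl
    have : NeZero q := ⟨(Fact.out : q.Prime).ne_zero⟩
    choose g' h1 h2 using heckeMatrix_mul_of_dvd (p := q) (g : SL(2, ℤ)) hc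
    refine ⟨affinePerm (g : SL(2, ℤ)) ((ZMod.intCast_zmod_eq_zero_iff_dvd _ _).mpr hc),
      fun x => ⟨g' x, ?_⟩, h2⟩
    rw [mem_Gamma0_iff, h1 x]
    push_cast
    push_cast at hcN
    exact mul_dvd_mul_left _ hcN
  cusp g x := cuspP_heckeRep (q := q) (x : OnePoint (ZMod q)) g

end Fermat.Agent.S36
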