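import Fermat.Agent.S35.AN

/-!
# S36, analytic block (helper17), part 1: the Atkin-Lehner involution `w_{q²}` of `ℚ̄(X₀(q² M))`, `q ∤ M`
-/

set_option autoImplicit false

namespace Fermat.Agent.S36

open UpperHalfPlane ModularForm EisensteinSeries Filter Topology CongruenceSubgroup ModularCurve
open Fermat.Agent.S20 Fermat.Agent.S23 Fermat.Agent.S24 Fermat.Agent.GR Fermat.Agent.S34
open Fermat.Agent.S35 (Bez)
open scoped MatrixGroups Manifold ModularForm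

theorem jd_congr {d d' : ℕ} [NeZero d] [NeZero d'] (h : d = d') : jd d = jd d' := by
  subst h
  rfl

theorem exists_bez2 {q M : ℕ} (hq : q.Prime) (hqM : ¬ q ∣ M) : Nonempty (Bez (q * q) M) := by
  have hcop : IsCoprime (q : ℤ) (M : ℤ) :=
    Nat.isCoprime_iff_coprime.mpr ((Nat.Prime.coprime_iff_not_dvd hq).mpr hqM)
  obtain ⟨u, v, huv⟩ := IsCoprime.mul_left hcop hcop
  exact ⟨⟨-v, u, by push_cast; linear_combination huv⟩⟩

/-- the Atkin-Lehner matrix `[[q², b], [q² M, q² c]]`. -/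
noncomputable def W2 {q M : ℕ} [Fact q.Prime] (B : Bez (q * q) M) : GL (Fin 2) ℝ :=
  wqMat (q * q) M B.b B.c (Nat.mul_pos (Fact.out : q.Prime).pos (Fact.out : q.Prime).pos) B.h

theorem det_W2 {q M : ℕ} [Fact q.Prime] (B : Bez (q * q) M) : 0 < (W2 B).det.val :=
  det_wqMat _ _ _ _ _ _

theorem wq_smul_C (q d e : ℕ) [NeZero d] [NeZero (q * d)] (he : e ≠ 0) (b c : ℤ) (hq : 0 < q * q)
    (h : ((q * q : ℕ) : ℤ) * c - ((d * e : ℕ) : ℤ) * b = 1) :
    ∃ γ : SL(2, ℤ), ∀ z : ℍ, sepAlpha (q * d) • (wqMat (q * q) (d * e) b c hq h • z) =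
      γ • (sepAlpha (q * d) • z) := by
  obtain ⟨γ, g00, g01, g10, g11⟩ := wq_exists_SL q (d * b) e (q * c) (by
    push_cast at h
    linear_combination h)
  refine ⟨γ, fun z => ?_⟩
  apply UpperHalfPlane.ext
  rw [coe_sepAlpha_smul, coe_wqMat_smul, coe_specialLinearGroup_apply, coe_sepAlpha_smul,
    g00, g01, g10, g11]
  have hd : (d : ℤ) * e ≠ 0 := by
    have := NeZero.ne d
    positivity
  have h1 := wq_denom_ne_zero ((d : ℤ) * e) c hd z
  have hq0 : q ≠ 0 := fun h0 => by simp [h0] at hq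
  have hq' : (q : ℂ) ≠ 0 := by exact_mod_cast hq0
  push_cast at h1
  have h2 : ((q * q : ℕ) : ℂ) * ((d * e : ℕ) : ℂ) * z + ((q * q : ℕ) : ℂ) * c ≠ 0 := by
    have : ((q * q : ℕ) : ℂ) * ((d * e : ℕ) : ℂ) * z + ((q * q : ℕ) : ℂ) * c
        = q * q * ((d : ℂ) * e * z + c) := by
      push_cast; ring
    rw [this]
    exact mul_ne_zero (mul_ne_zero hq' hq') h1
  have h3 : (e : ℂ) * (((q * d : ℕ) : ℂ) * z) + q * c ≠ 0 := by
    have : (e : ℂ) * (((q * d : ℕ) : ℂ) * z) + q * c = q * ((d : ℂ) * e * z + c) := by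
      push_cast; ring
    rw [this]
    exact mul_ne_zero hq' h1
  simp only [algebraMap_int_eq, Int.coe_castRingHom]
  push_cast
  push_cast at h2 h3
  rw [mul_div_assoc', div_eq_div_iff h2 h3]
  ring

section rel
variable {q M : ℕ} [Fact q.Prime] [NeZero (q * (q * M))]

omit [Fact q.Prime] in
theorem M_ne_zero' (q : ℕ) {M : ℕ} [NeZero (q * (q * M))] : M ≠ 0 :=
  fun h0 => NeZero.ne (q * (q * M)) (by rw [h0, mul_zero, mul_zero])

theorem rel2_A (B : Bez (q * q) M) (d : ℕ) [NeZero d] [NeZero (q * q * d)] (hd : d ∣ M) :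
    Rel (W2 B) (jd d) (jd (q * q * d)) := by
  have hM0 : M ≠ 0 := M_ne_zero' q
  obtain ⟨b, c, h⟩ := B
  obtain ⟨e, rfl⟩ := hd
  have he : e ≠ 0 := fun h0 => hM0 (by rw [h0, mul_zero])
  obtain ⟨γ, hγ⟩ := wq_smul_A (q * q) d e he b c
    (Nat.mul_pos (Fact.out : q.Prime).pos (Fact.out : q.Prime).pos) h
  exact rel_jd γ hγ

theorem rel2_B (B : Bez (q * q) M) (d : ℕ) [NeZero d] [NeZero (q * q * d)] (hd : d ∣ M) :
    Rel (W2 B) (jd (q * q * d)) (jd d) := by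
  have hM0 : M ≠ 0 := M_ne_zero' q
  obtain ⟨b, c, h⟩ := B
  obtain ⟨e, rfl⟩ := hd
  have he : e ≠ 0 := fun h0 => hM0 (by rw [h0, mul_zero])
  obtain ⟨γ, hγ⟩ := wq_smul_B (q * q) d e he b c
    (Nat.mul_pos (Fact.out : q.Prime).pos (Fact.out : q.Prime).pos) h
  exact rel_jd γ hγ

theorem rel2_C (B : Bez (q * q) M) (d : ℕ) [NeZero d] [NeZero (q * d)] (hd : d ∣ M) :
    Rel (W2 B) (jd (q * d)) (jd (q * d)) := by
  have hM0 : M ≠ 0 := M_ne_zero' q
  obtain ⟨b, c, h⟩ := B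
  obtain ⟨e, rfl⟩ := hd
  have he : e ≠ 0 := fun h0 => hM0 (by rw [h0, mul_zero])
  obtain ⟨γ, hγ⟩ := wq_smul_C q d e he b c
    (Nat.mul_pos (Fact.out : q.Prime).pos (Fact.out : q.Prime).pos) h
  exact rel_jd γ hγ

end rel

theorem div_cases {q M d : ℕ} (hq : q.Prime) (hd : d ∣ q * (q * M)) :
    (d ∣ M) ∨ (∃ d₁, d₁ ∣ M ∧ d = q * d₁) ∨ (∃ d₁, d₁ ∣ M ∧ d = q * q * d₁) := by
  by_cases h1 : q ∣ d
  · obtain ⟨d', rfl⟩ := h1
    have hd' : d' ∣ q * M := Nat.dvd_of_mul_dvd_mul_left hq.pos hd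
    by_cases h2 : q ∣ d'
    · obtain ⟨d'', rfl⟩ := h2
      exact Or.inr (Or.inr ⟨d'', Nat.dvd_of_mul_dvd_mul_left hq.pos hd', (mul_assoc _ _ _).symm⟩)
    · have hcop : Nat.Coprime d' q := ((Nat.Prime.coprime_iff_not_dvd hq).mpr h2).symm
      exact Or.inr (Or.inl ⟨d', hcop.dvd_of_dvd_mul_left hd', rfl⟩)
  · have hcop : Nat.Coprime d q := ((Nat.Prime.coprime_iff_not_dvd hq).mpr h1).symm
    exact Or.inl (hcop.dvd_of_dvd_mul_left (hcop.dvd_of_dvd_mul_left hd))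

theorem dvd_A {q M d : ℕ} (hd : d ∣ M) : d ∣ q * (q * M) :=
  Dvd.dvd.mul_left (Dvd.dvd.mul_left hd _) _

theorem dvd_C {q M d : ℕ} (hd : d ∣ M) : q * d ∣ q * (q * M) :=
  Nat.mul_dvd_mul_left _ (Dvd.dvd.mul_left hd _)

theorem dvd_B {q M d : ℕ} (hd : d ∣ M) : q * q * d ∣ q * (q * M) := by
  rw [mul_assoc]
  exact Nat.mul_dvd_mul_left _ (Nat.mul_dvd_mul_left _ hd)

/-- what we know about the endomorphism `w = w_{q²}`. -/
def IsW2 (q M : ℕ) (w : FN (q * (q * M)) →ₐ[Kb] FN (q * (q * M))) : Prop :=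
  ∀ (d : ℕ) [NeZero d] [NeZero (q * d)] [NeZero (q * q * d)], d ∣ M → ∀ f : FN (q * (q * M)),
    ((f : LaurentSeries Kb) = jd d → (w f : LaurentSeries Kb) = jd (q * q * d)) ∧
    ((f : LaurentSeries Kb) = jd (q * d) → (w f : LaurentSeries Kb) = jd (q * d)) ∧
    ((f : LaurentSeries Kb) = jd (q * q * d) → (w f : LaurentSeries Kb) = jd d)

theorem exists_rel2 {q M : ℕ} [Fact q.Prime] [NeZero (q * (q * M))] (B : Bez (q * q) M)
    (s : LaurentSeries Kb) (hs : s ∈ FN (q * (q * M))) :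
    ∃ s' ∈ FN (q * (q * M)), Rel (W2 B) s s' := by
  have hq : q.Prime := Fact.out
  have hdet := det_W2 B
  rw [mem_FN_iff] at hs
  induction hs using IntermediateField.adjoin_induction with
  | mem x hx =>
    obtain ⟨d, hne, hd, rfl⟩ := hx
    rcases div_cases hq hd with h | ⟨d₁, h, rfl⟩ | ⟨d₁, h, rfl⟩
    · have : NeZero (q * q * d) :=
        ⟨Nat.mul_ne_zero (Nat.mul_ne_zero hq.ne_zero hq.ne_zero) (NeZero.ne d)⟩
      exact ⟨jd (q * q * d), jd_mem (dvd_B h), rel2_A B d h⟩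
    · have : NeZero d₁ := ⟨fun h0 => NeZero.ne (q * d₁) (by rw [h0, mul_zero])⟩
      exact ⟨jd (q * d₁), jd_mem (dvd_C h), rel2_C B d₁ h⟩
    · have : NeZero d₁ := ⟨fun h0 => NeZero.ne (q * q * d₁) (by rw [h0, mul_zero])⟩
      exact ⟨jd d₁, jd_mem (dvd_A h), rel2_B B d₁ h⟩
  | algebraMap x => exact ⟨_, IntermediateField.algebraMap_mem _ _, Rel.const x⟩
  | add x y _ _ hx hy =>
    obtain ⟨x', hx', rx⟩ := hx
    obtain ⟨y', hy', ry⟩ := hy
    exact ⟨_, add_mem hx' hy', rx.add ry⟩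
  | inv x _ hx =>
    obtain ⟨x', hx', rx⟩ := hx
    exact ⟨_, inv_mem hx', rx.inv hdet⟩
  | mul x y _ _ hx hy =>
    obtain ⟨x', hx', rx⟩ := hx
    obtain ⟨y', hy', ry⟩ := hy
    exact ⟨_, mul_mem hx' hy', rx.mul ry⟩

theorem exists_w2Hom {q M : ℕ} [NeZero (q * (q * M))] (hq : q.Prime) (hqM : ¬ q ∣ M) :
    ∃ w : FN (q * (q * M)) →ₐ[Kb] FN (q * (q * M)), IsW2 q M w := by
  have : Fact q.Prime := ⟨hq⟩
  obtain ⟨B⟩ := exists_bez2 hq hqM
  have hdet := det_W2 B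
  choose f hfmem hfrel using fun s : FN (q * (q * M)) => exists_rel2 B s s.2
  have huniq : ∀ (s : FN (q * (q * M))) (t : LaurentSeries Kb),
      Rel (W2 B) (s : LaurentSeries Kb) t → f s = t :=
    fun s t ht => (hfrel s).unique hdet ht
  refine ⟨{ toFun := fun s => ⟨f s, hfmem s⟩
            map_one' := Subtype.ext (huniq 1 1 (by
              have := Rel.const (δ := W2 B) 1
              rwa [map_one] at this))
            map_mul' := fun x y => Subtype.ext (huniq (x * y) _ ((hfrel x).mul (hfrel y)))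
            map_zero' := Subtype.ext (huniq 0 0 Rel.zero)
            map_add' := fun x y => Subtype.ext (huniq (x + y) _ ((hfrel x).add (hfrel y)))
            commutes' := fun r => Subtype.ext (huniq _ _ (Rel.const r)) }, ?_⟩
  intro d _ _ _ hd s
  refine ⟨fun hs => ?_, fun hs => ?_, fun hs => ?_⟩
  · apply huniq
    rw [hs]
    exact rel2_A B d hd
  · apply huniq
    rw [hs]
    exact rel2_C B d hd
  · apply huniq
    rw [hs]
    exact rel2_B B d hd

section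
variable {q M : ℕ} {w : FN (q * (q * M)) →ₐ[Kb] FN (q * (q * M))}

theorem IsW2.gen (hw : IsW2 q M w) (hq : q.Prime) (d : ℕ) [NeZero d] (hd : d ∣ q * (q * M)) :
    ∃ (d' : ℕ) (_ : NeZero d') (hd' : d' ∣ q * (q * M)),
      w ⟨jd d, jd_mem hd⟩ = ⟨jd d', jd_mem hd'⟩ ∧ w ⟨jd d', jd_mem hd'⟩ = ⟨jd d, jd_mem hd⟩ := by
  rcases div_cases hq hd with h | ⟨d₁, h, rfl⟩ | ⟨d₁, h, rfl⟩
  · have i1 : NeZero (q * d) := ⟨Nat.mul_ne_zero hq.ne_zero (NeZero.ne d)⟩
    have i2 : NeZero (q * q * d) :=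
      ⟨Nat.mul_ne_zero (Nat.mul_ne_zero hq.ne_zero hq.ne_zero) (NeZero.ne d)⟩
    exact ⟨q * q * d, i2, dvd_B h, Subtype.ext ((hw d h _).1 rfl),
      Subtype.ext ((hw d h _).2.2 rfl)⟩
  · have i0 : NeZero d₁ := ⟨fun h0 => NeZero.ne (q * d₁) (by rw [h0, mul_zero])⟩
    have i2 : NeZero (q * q * d₁) :=
      ⟨Nat.mul_ne_zero (Nat.mul_ne_zero hq.ne_zero hq.ne_zero) (NeZero.ne d₁)⟩
    exact ⟨q * d₁, inferInstance, hd, Subtype.ext ((hw d₁ h _).2.1 rfl),
      Subtype.ext ((hw d₁ h _).2.1 rfl)⟩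
  · have i0 : NeZero d₁ := ⟨fun h0 => NeZero.ne (q * q * d₁) (by rw [h0, mul_zero])⟩
    have i1 : NeZero (q * d₁) := ⟨Nat.mul_ne_zero hq.ne_zero (NeZero.ne d₁)⟩
    exact ⟨d₁, i0, dvd_A h, Subtype.ext ((hw d₁ h _).2.2 rfl),
      Subtype.ext ((hw d₁ h _).1 rfl)⟩

theorem IsW2.invol (hw : IsW2 q M w) (hq : q.Prime) (f : FN (q * (q * M))) : w (w f) = f := by
  induction f using FN_induction with
  | gen d hd =>
    obtain ⟨d', _, hd', h1, h2⟩ := hw.gen hq d hd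
    rw [h1, h2]
  | alg c => rw [AlgHom.commutes, AlgHom.commutes]
  | add x y hx hy => rw [map_add, map_add, hx, hy]
  | inv x hx => rw [map_inv₀, map_inv₀, hx]
  | mul x y hx hy => rw [map_mul, map_mul, hx, hy]

theorem IsW2.gal (hw : IsW2 q M w) (hq : q.Prime) (σ : GQ) (f : FN (q * (q * M))) :
    w (galF (q * (q * M)) σ f) = galF (q * (q * M)) σ (w f) := by
  induction f using FN_induction with
  | gen d hd =>
    obtain ⟨d', _, hd', h1, -⟩ := hw.gen hq d hd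
    rw [galF_jd _ σ d hd, h1, galF_jd _ σ d' hd']
  | alg c =>
    rw [AlgHom.commutes]
    have : galF (q * (q * M)) σ (algebraMap Kb (FN (q * (q * M))) c)
        = algebraMap Kb (FN (q * (q * M))) (σ c) :=
      arithmeticRingAut_algebraMap _ σ c
    rw [this, AlgHom.commutes]
  | add x y hx hy => rw [map_add, map_add, map_add, map_add, hx, hy]
  | inv x hx => rw [map_inv₀, map_inv₀, map_inv₀, map_inv₀, hx]
  | mul x y hx hy => rw [map_mul, map_mul, map_mul, map_mul, hx, hy]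

theorem IsW2.incl (hw : IsW2 q M w) (hq : q.Prime) [NeZero (q * q)] (g : FN M) :
    ((w (Fermat.Agent.S18.inclFN (dvd_A (dvd_refl M)) g) : FN (q * (q * M))) : LaurentSeries Kb) =
      qExpand Kb (q * q) (g : LaurentSeries Kb) := by
  induction g using FN_induction with
  | gen d hd =>
    have i1 : NeZero (q * d) := ⟨Nat.mul_ne_zero hq.ne_zero (NeZero.ne d)⟩
    have i2 : NeZero (q * q * d) :=
      ⟨Nat.mul_ne_zero (Nat.mul_ne_zero hq.ne_zero hq.ne_zero) (NeZero.ne d)⟩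
    rw [(hw d hd _).1 (Fermat.Agent.S18.coe_inclFN _ _)]
    exact (qExpand_jd (q * q) d).symm
  | alg c =>
    rw [AlgHom.commutes, AlgHom.commutes, coe_algebraMap_FN, coe_algebraMap_FN, qExpand_C]
  | add x y hx hy =>
    rw [map_add, map_add, AddMemClass.coe_add, AddMemClass.coe_add, hx, hy, map_add]
  | inv x hx =>
    rw [map_inv₀, map_inv₀, IntermediateField.coe_inv, IntermediateField.coe_inv, hx, map_inv₀]
  | mul x y hx hy =>
    rw [map_mul, map_mul, MulMemClass.coe_mul, MulMemClass.coe_mul, hx, hy, map_mul]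

/-- `w_{q²} f = (w_q f)(t^q)` for `f ∈ ℚ̄(X₀(q M))`. -/
theorem IsW2.mid (hw : IsW2 q M w) (hq : q.Prime) [NeZero q]
    {w' : FN (q * M) →ₐ[Kb] FN (q * M)} (hw' : Fermat.Agent.S34.IsWq q M w') (g : FN (q * M)) :
    ((w (Fermat.Agent.S18.inclFN (Dvd.intro_left q rfl) g) : FN (q * (q * M))) :
      LaurentSeries Kb) = qExpand Kb q ((w' g : FN (q * M)) : LaurentSeries Kb) := by
  induction g using FN_induction with
  | gen d hd =>
    by_cases hqd : q ∣ d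
    · obtain ⟨d₁, rfl⟩ := hqd
      have hd₁ : d₁ ∣ M := Nat.dvd_of_mul_dvd_mul_left hq.pos hd
      have i0 : NeZero d₁ := ⟨fun h0 => NeZero.ne (q * d₁) (by rw [h0, mul_zero])⟩
      have i2 : NeZero (q * q * d₁) :=
        ⟨Nat.mul_ne_zero (Nat.mul_ne_zero hq.ne_zero hq.ne_zero) (NeZero.ne d₁)⟩
      rw [(hw d₁ hd₁ _).2.1 (Fermat.Agent.S18.coe_inclFN _ _), (hw' d₁ hd₁ _).2 rfl]
      exact (qExpand_jd q d₁).symm
    · have hcop : Nat.Coprime d q := ((Nat.Prime.coprime_iff_not_dvd hq).mpr hqd).symm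
      have hd₁ : d ∣ M := hcop.dvd_of_dvd_mul_left hd
      have i1 : NeZero (q * d) := ⟨Nat.mul_ne_zero hq.ne_zero (NeZero.ne d)⟩
      have i2 : NeZero (q * q * d) :=
        ⟨Nat.mul_ne_zero (Nat.mul_ne_zero hq.ne_zero hq.ne_zero) (NeZero.ne d)⟩
      have i3 : NeZero (q * (q * d)) := ⟨Nat.mul_ne_zero hq.ne_zero (NeZero.ne (q * d))⟩
      rw [(hw d hd₁ _).1 (Fermat.Agent.S18.coe_inclFN _ _), (hw' d hd₁ _).1 rfl,
        qExpand_jd q (q * d)]
      exact jd_congr (mul_assoc _ _ _)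
  | alg c =>
    rw [AlgHom.commutes, AlgHom.commutes, AlgHom.commutes, coe_algebraMap_FN, coe_algebraMap_FN,
      qExpand_C]
  | add x y hx hy =>
    rw [map_add, map_add, map_add, AddMemClass.coe_add, AddMemClass.coe_add, hx, hy, map_add]
  | inv x hx =>
    rw [map_inv₀, map_inv₀, map_inv₀, IntermediateField.coe_inv, IntermediateField.coe_inv, hx,
      map_inv₀]
  | mul x y hx hy =>
    rw [map_mul, map_mul, map_mul, MulMemClass.coe_mul, MulMemClass.coe_mul, hx, hy, map_mul]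

theorem rel_of_isW2 [Fact q.Prime] [NeZero (q * (q * M))] (B : Bez (q * q) M)
    (hw : IsW2 q M w) (f : FN (q * (q * M))) :
    Rel (W2 B) (f : LaurentSeries Kb) (w f : LaurentSeries Kb) := by
  have hq : q.Prime := Fact.out
  have hdet := det_W2 B
  induction f using FN_induction with
  | gen d hd =>
    rcases div_cases hq hd with h | ⟨d₁, h, rfl⟩ | ⟨d₁, h, rfl⟩
    · have i1 : NeZero (q * d) := ⟨Nat.mul_ne_zero hq.ne_zero (NeZero.ne d)⟩
      have i2 : NeZero (q * q * d) :=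
        ⟨Nat.mul_ne_zero (Nat.mul_ne_zero hq.ne_zero hq.ne_zero) (NeZero.ne d)⟩
      rw [(hw d h _).1 rfl]
      exact rel2_A B d h
    · have i0 : NeZero d₁ := ⟨fun h0 => NeZero.ne (q * d₁) (by rw [h0, mul_zero])⟩
      have i2 : NeZero (q * q * d₁) :=
        ⟨Nat.mul_ne_zero (Nat.mul_ne_zero hq.ne_zero hq.ne_zero) (NeZero.ne d₁)⟩
      rw [(hw d₁ h _).2.1 rfl]
      exact rel2_C B d₁ h
    · have i0 : NeZero d₁ := ⟨fun h0 => NeZero.ne (q * q * d₁) (by rw [h0, mul_zero])⟩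
      have i1 : NeZero (q * d₁) := ⟨Nat.mul_ne_zero hq.ne_zero (NeZero.ne d₁)⟩
      rw [(hw d₁ h _).2.2 rfl]
      exact rel2_B B d₁ h
  | alg c =>
    rw [AlgHom.commutes]
    exact Rel.const c
  | add x y hx hy =>
    rw [map_add, AddMemClass.coe_add, AddMemClass.coe_add]
    exact hx.add hy
  | inv x hx =>
    rw [map_inv₀, IntermediateField.coe_inv, IntermediateField.coe_inv]
    exact hx.inv hdet
  | mul x y hx hy =>
    rw [map_mul, MulMemClass.coe_mul, MulMemClass.coe_mul]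
    exact hx.mul hy

end

/-- **WQ2.**  The Atkin-Lehner involution `w_{q²}` of `ℚ̄(X₀(q² M))`. -/
theorem exists_wq2 {q M : ℕ} [NeZero (q * (q * M))] [NeZero q] [NeZero (q * q)] (hq : q.Prime)
    (hqM : ¬ q ∣ M) :
    ∃ w : FN (q * (q * M)) ≃ₐ[Kb] FN (q * (q * M)),
      IsW2 q M w.toAlgHom ∧
      (∀ f, w (w f) = f) ∧
      (∀ (σ : GQ) (f : FN (q * (q * M))),
        w (galF (q * (q * M)) σ f) = galF (q * (q * M)) σ (w f)) ∧
      (∀ f : FN (q * (q * M)), (f : LaurentSeries Kb) ∈ FN M →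
        (w f : LaurentSeries Kb) = qExpand Kb (q * q) (f : LaurentSeries Kb)) ∧
      (∀ (f : FN (q * (q * M))) (hf : (f : LaurentSeries Kb) ∈ FN (q * M))
        (w' : FN (q * M) ≃ₐ[Kb] FN (q * M)), Fermat.Agent.S35.IsWq q M w' →
        (w f : LaurentSeries Kb) = qExpand Kb q ((w' ⟨f, hf⟩ : FN (q * M)) : LaurentSeries Kb)) := by
  obtain ⟨w, hw⟩ := exists_w2Hom hq hqM
  have hinv := hw.invol hq
  refine ⟨AlgEquiv.ofAlgHom w w (AlgHom.ext hinv) (AlgHom.ext hinv), hw, hinv, hw.gal hq,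
    fun f hf => ?_, fun f hf w' hw' => ?_⟩
  · have hA : f = Fermat.Agent.S18.inclFN (dvd_A (dvd_refl M)) (⟨f, hf⟩ : FN M) := by
      apply Subtype.ext
      rw [Fermat.Agent.S18.coe_inclFN]
    show ((w f : FN (q * (q * M))) : LaurentSeries Kb) = _
    conv_lhs => rw [hA]
    rw [hw.incl hq]
  · have hA : f = Fermat.Agent.S18.inclFN (Dvd.intro_left q rfl) (⟨f, hf⟩ : FN (q * M)) := by
      apply Subtype.ext
      rw [Fermat.Agent.S18.coe_inclFN]
    show ((w f : FN (q * (q * M))) : LaurentSeries Kb) = _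
    conv_lhs => rw [hA]
    rw [hw.mid hq hw'.toS34]
    rfl

end Fermat.Agent.S36
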