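import Fermat.Agent.GR.Lim
import Fermat.Agent.GR.Pseudo
import Fermat.Agent.GR.TowerAsm
import Fermat.Agent.S30

/-!
# S36, piece CONS: the consumer

* `exists_traceDataE` : copy of `GR.exists_traceData` with the eigenvector `h` as an INPUT and with the evaluation maps
  `ev n : D.X → 𝒪 ⊗ A n` (equivariant, jointly injective, with values in the span of the Galois orbit of `ιM n h`).
* `exists_fixed_of_unip` : pure algebra: a group acting on a nonzero torsion free module with `(τ - 1)² = 0` for all `τ` has a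
  nonzero fixed vector.
* `consumer` : the exact conclusion of S36 for a character `χ` of the Hecke algebra, from a tower and the hypothesis `hkey`
  ("inertia invariant elements of the span of the orbit of `ιM n h` are killed by `d ≠ 0`").
-/

set_option autoImplicit false

namespace Fermat.Agent.S36

open Fermat.Agent.GR TensorProduct IsLocalRing Polynomial

theorem exists_traceDataE {p N : ℕ} [NeZero N] [Fact p.Prime] (𝔗 : Tower p N) (S : Finset ℕ)
    (hpS : p ∈ S) (hNS : ∀ q : ℕ, q.Prime → q ∣ N → q ∈ S)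
    {𝒪 : Type} [CommRing 𝒪] [IsDomain 𝒪] [IsDiscreteValuationRing 𝒪]
    [IsAdicComplete (maximalIdeal 𝒪) 𝒪] [CharZero 𝒪] (hp : (p : 𝒪) ∈ maximalIdeal 𝒪)
    (χ : CuspForm.heckeAlgebra N 2 (↑S : Set ℕ) →+* 𝒪) (δ : GQ →* 𝒪ˣ) (hδ : IsCyclo p δ)
    (h : 𝒪 ⊗[ℤ] 𝔗.H) (hh0 : h ≠ 0)
    (hheig : ∀ (ℓ : ℕ) (hℓ : ℓ.Prime) (hℓN : ¬ ℓ ∣ N) (hℓS : ℓ ∉ (↑S : Set ℕ)),
      (𝔗.actH (CuspForm.heckeAlgebra.T hℓ hℓN (Set.notMem_empty ℓ))).baseChange 𝒪 h =
        χ (CuspForm.heckeAlgebra.T hℓ hℓN hℓS) • h) :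
    ∃ (D : TraceData p N S 𝒪 χ δ) (ev : ∀ n, D.X →ₗ[𝒪] 𝔗.M 𝒪 n),
      (∀ (n : ℕ) (g : GQ) (x : D.X), ev n (D.r g x) = 𝔗.actM 𝒪 n g (ev n x)) ∧
      (∀ (n : ℕ) (x : D.X), ev n x ∈
        Submodule.span 𝒪 (Set.range fun g' : GQ => 𝔗.actM 𝒪 n g' (𝔗.ιM 𝒪 n h))) ∧
      (∀ x : D.X, (∀ n, ev n x = 0) → x = 0) := by
  classical
  have hpp : p.Prime := Fact.out
  let W : ∀ n, 𝔗.M 𝒪 n := fun n => 𝔗.ιM 𝒪 n h
  have hW : W ∈ 𝔗.Lim 𝒪 := fun n => 𝔗.trM_ιM n h
  have hsep : ∀ a : 𝒪, (∀ n : ℕ, a ∈ Ideal.span {(p : 𝒪) ^ n}) → a = 0 := by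
    intro a ha
    have hH : IsHausdorff (maximalIdeal 𝒪) 𝒪 := inferInstance
    apply hH.haus a
    intro n
    rw [SModEq.zero, smul_eq_mul, Ideal.mul_top]
    exact (Ideal.span_singleton_le_iff_mem _).2 (Ideal.pow_mem_pow hp n) (ha n)
  have hW0 : W ≠ 0 := by
    obtain ⟨n, hn⟩ := 𝔗.exists_ιM_ne_zero hsep h hh0
    intro h0
    exact hn (congrFun h0 n)
  have hWeig : ∀ (n ℓ : ℕ) (hℓ : ℓ.Prime) (hℓN : ¬ ℓ ∣ N) (hℓS : ℓ ∉ (↑S : Set ℕ)),
      𝔗.TM 𝒪 n ℓ (W n) = χ (CuspForm.heckeAlgebra.T hℓ hℓN hℓS) • W n := by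
    intro n ℓ hℓ hℓN hℓS
    have hℓp : ℓ ≠ p := fun h => hℓS (by simpa [h] using hpS)
    show 𝔗.TM 𝒪 n ℓ (𝔗.ιM 𝒪 n h) = _
    rw [← 𝔗.ιM_T n ℓ hℓ hℓN hℓp h, hheig ℓ hℓ hℓN hℓS, map_smul]
  have hex : ∀ (g : GQ) (n : ℕ), ∃ t, 𝔗.Sol δ W n g t := fun g n =>
    𝔗.exists_level_trace S hpS hNS χ δ hδ n (W n) (hWeig n) g
  choose t ht using fun g => Tower.exists_global_sol hp hW hW0 g (hex g)
  let X : Submodule 𝒪 (∀ n, 𝔗.M 𝒪 n) := Submodule.span 𝒪 (Set.range fun g : GQ => 𝔗.actP g W)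
  have hXLim : X ≤ 𝔗.Lim 𝒪 := Submodule.span_le.2 (by
    rintro _ ⟨g, rfl⟩
    exact 𝔗.actP_mem_Lim g hW)
  have hXst : ∀ g : GQ, ∀ x ∈ X, 𝔗.actP g x ∈ X := by
    intro g x hx
    induction hx using Submodule.span_induction with
    | mem x hx =>
      obtain ⟨g', rfl⟩ := hx
      rw [← Tower.actP_mul]
      exact Submodule.subset_span ⟨_, rfl⟩
    | zero => rw [map_zero]; exact zero_mem _
    | add x y _ _ hx hy => rw [map_add]; exact add_mem hx hy
    | smul a x _ hx => rw [map_smul]; exact Submodule.smul_mem _ _ hx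
  have hrel : ∀ g : GQ, ∀ x ∈ X,
      𝔗.actP g (𝔗.actP g x) - t g • 𝔗.actP g x + (δ g : 𝒪) • x = 0 := by
    intro g x hx
    induction hx using Submodule.span_induction with
    | mem x hx =>
      obtain ⟨g', rfl⟩ := hx
      funext n
      exact ht g n g'
    | zero => simp
    | add x y _ _ hx hy =>
      have e : 𝔗.actP g (𝔗.actP g (x + y)) - t g • 𝔗.actP g (x + y) + (δ g : 𝒪) • (x + y) =
          (𝔗.actP g (𝔗.actP g x) - t g • 𝔗.actP g x + (δ g : 𝒪) • x) +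
          (𝔗.actP g (𝔗.actP g y) - t g • 𝔗.actP g y + (δ g : 𝒪) • y) := by
        simp only [map_add, smul_add]; abel
      rw [e, hx, hy, add_zero]
    | smul a x _ hx =>
      have e : 𝔗.actP g (𝔗.actP g (a • x)) - t g • 𝔗.actP g (a • x) + (δ g : 𝒪) • (a • x) =
          a • (𝔗.actP g (𝔗.actP g x) - t g • 𝔗.actP g x + (δ g : 𝒪) • x) := by
        simp only [map_smul, smul_add, smul_sub, smul_comm a]
      rw [e, hx, smul_zero]
  let r : GQ →* Module.End 𝒪 X :=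
    { toFun := fun g => (𝔗.actP g).restrict (hXst g)
      map_one' := by
        ext x : 2
        exact 𝔗.actP_one (x : ∀ n, 𝔗.M 𝒪 n)
      map_mul' := by
        intro g g'
        ext x : 2
        exact 𝔗.actP_mul g g' (x : ∀ n, 𝔗.M 𝒪 n) }
  have hr_apply : ∀ (g : GQ) (x : X), ((r g x : X) : ∀ n, 𝔗.M 𝒪 n) = 𝔗.actP g x := fun _ _ => rfl
  refine ⟨{ X := X, nontriv := ?_, tf := ?_, r := r, t := t, rel := ?_, frob := ?_, unram := ?_,
            cont := ?_ }, ?_⟩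
  rotate_right
  · refine ⟨fun n => (LinearMap.proj n).comp X.subtype, fun n g x => rfl, fun n x => ?_,
      fun x hx => Subtype.ext (funext hx)⟩
    have key : ∀ x ∈ X, x n ∈
        Submodule.span 𝒪 (Set.range fun g' : GQ => 𝔗.actM 𝒪 n g' (𝔗.ιM 𝒪 n h)) := by
      intro x hx
      induction hx using Submodule.span_induction with
      | mem x hx =>
        obtain ⟨g', rfl⟩ := hx
        exact Submodule.subset_span ⟨g', rfl⟩
      | zero => exact zero_mem _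
      | add x y _ _ hx hy => exact add_mem hx hy
      | smul a x _ hx => exact Submodule.smul_mem _ _ hx
    exact key x x.2
  · refine ⟨⟨⟨W, ?_⟩, 0, ?_⟩⟩
    · have h1 : 𝔗.actP 1 W ∈ X := Submodule.subset_span ⟨1, rfl⟩
      rwa [Tower.actP_one] at h1
    · intro h0
      exact hW0 (congrArg Subtype.val h0)
  · intro a x hax
    by_cases ha : a = 0
    · exact Or.inl ha
    · right
      apply Subtype.ext
      exact Tower.Lim_tf hp (hXLim x.2) ha (congrArg Subtype.val hax)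
  · intro g x
    apply Subtype.ext
    exact hrel g x x.2
  · intro ℓ hℓ hℓN hℓS P hP σ hσ
    have hℓp : ℓ ≠ p := fun h => hℓS (by simpa [h] using hpS)
    apply Tower.sol_unique hp hW hW0 (ht σ)
    intro n g'
    have h1 := 𝔗.es_M (𝒪 := 𝒪) n ℓ hℓ hℓN hℓp P hP σ hσ (𝔗.actM 𝒪 n g' (W n))
    rw [Tower.TM_actM, Tower.TM_actM, hWeig n ℓ hℓ hℓN hℓS, map_smul, map_smul] at h1
    rw [hδ.frob hp hℓ hℓp hP hσ]
    exact h1
  · intro q hq hqN hqp P hP σ hσ
    ext x : 2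
    funext n
    exact 𝔗.unram_M n q hq hqN hqp P hP σ hσ _
  · intro n
    obtain ⟨n', hn'⟩ := Tower.exists_ann_le hp hW hW0 n
    obtain ⟨L, hfd, hst, hroots, hfix⟩ := 𝔗.exists_field_fixing' hpp.pos n' (W n')
    refine ⟨L, hfd, fun σ hσ g h' => ?_⟩
    apply hn'
    refine Tower.Sol.ann (δ := δ) (g := g * h') ?_ (ht (g * h') n')
    intro g'
    have h1 := ht (g * σ * h') n' g'
    have hact : ∀ g'' : GQ, 𝔗.actM 𝒪 n' (g * σ * h') (𝔗.actM 𝒪 n' g'' (W n')) =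
        𝔗.actM 𝒪 n' (g * h') (𝔗.actM 𝒪 n' g'' (W n')) := by
      intro g''
      rw [Tower.actM_mul, Tower.actM_mul, ← Tower.actM_mul _ _ h' g'', hfix σ hσ (h' * g''),
        Tower.actM_mul _ _ g h', Tower.actM_mul _ _ h' g'']
    have hδσ : ((δ σ : 𝒪) - 1) ∈ Ideal.span {(p : 𝒪) ^ n'} := by
      have := hδ n' σ 1 (fun ζ hζ => by rw [pow_one]; exact hσ ζ (hroots ζ hζ))
      simpa using this
    have hδ2 : (δ (g * σ * h') : 𝒪) - (δ (g * h') : 𝒪) ∈ Ideal.span {(p : 𝒪) ^ n'} := by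
      have e : (δ (g * σ * h') : 𝒪) - (δ (g * h') : 𝒪) =
          (δ g : 𝒪) * (δ h' : 𝒪) * ((δ σ : 𝒪) - 1) := by
        simp only [map_mul, Units.val_mul]; ring
      rw [e]
      exact Ideal.mul_mem_left _ _ hδσ
    have h2 := 𝔗.smul_M_eq_zero_of_mem n' hδ2 (𝔗.actM 𝒪 n' g' (W n'))
    rw [sub_smul, sub_eq_zero] at h2
    have h3 : 𝔗.actM 𝒪 n' (g * σ * h') (𝔗.actM 𝒪 n' (g * h') (𝔗.actM 𝒪 n' g' (W n'))) =
        𝔗.actM 𝒪 n' (g * h') (𝔗.actM 𝒪 n' (g * h') (𝔗.actM 𝒪 n' g' (W n'))) := by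
      have := hact (g * h' * g')
      rwa [Tower.actM_mul _ _ (g * h') g'] at this
    rw [hact g', h3, h2] at h1
    exact h1

theorem nil_pair {E : Type*} [Ring E] (a b : E) (ha : a * a = 0) (hb : b * b = 0)
    (hab : (a + b + a * b) * (a + b + a * b) = 0) : a * b + b * a = 0 := by
  have E1 : a * b + b * a + b * a * b + a * b * a + a * b * a * b = 0 := by
    have e : (a + b + a * b) * (a + b + a * b) =
        a * b + b * a + b * a * b + a * b * a + a * b * a * b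
          + (a * a + b * b + a * a * b + a * (b * b)) := by noncomm_ring
    rw [e, ha, hb] at hab
    simpa using hab
  have E2 : a * b * a + a * b * a * b = 0 := by
    have e : a * b * a + a * b * a * b =
        a * (a * b + b * a + b * a * b + a * b * a + a * b * a * b)
          - (a * a) * (b + b * a + b * a * b) := by noncomm_ring
    rw [e, E1, ha]; simp
  have E3 : a * b * a = 0 := by
    have e : a * b * a = (a * b * a + a * b * a * b) * (1 - b) + a * b * a * (b * b) := by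
      noncomm_ring
    rw [e, E2, hb]; simp
  have E4 : b * a * b + a * b * a * b = 0 := by
    have e : b * a * b + a * b * a * b =
        (a * b + b * a + b * a * b + a * b * a + a * b * a * b) * b
          - (a + b * a + a * b * a) * (b * b) := by noncomm_ring
    rw [e, E1, hb]; simp
  have E5 : b * a * b = 0 := by
    have e : b * a * b = (1 - a) * (b * a * b + a * b * a * b) + (a * a) * (b * a * b) := by
      noncomm_ring
    rw [e, E4, ha]; simp
  have e : a * b + b * a = (a * b + b * a + b * a * b + a * b * a + a * b * a * b)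
      - b * a * b - a * b * a - (a * b * a) * b := by noncomm_ring
  rw [e, E1, E5, E3]; simp

/-- a group acting on a nonzero torsion free module with `(τ - 1)² = 0` for all `τ` has a nonzero fixed vector. -/
theorem exists_fixed_of_unip {𝒪 X G : Type*} [CommRing 𝒪] [CharZero 𝒪] [AddCommGroup X]
    [Module 𝒪 X] [Nontrivial X] (tf : ∀ (a : 𝒪) (x : X), a • x = 0 → a = 0 ∨ x = 0) [Group G]
    (r : G →* Module.End 𝒪 X) (I : Subgroup G)
    (h : ∀ τ ∈ I, ∀ x : X, r τ (r τ x) - (2 : 𝒪) • r τ x + x = 0) :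
    ∃ x : X, x ≠ 0 ∧ ∀ τ ∈ I, r τ x = x := by
  classical
  set n : G → Module.End 𝒪 X := fun τ => r τ - 1 with hn
  have hsq : ∀ τ ∈ I, n τ * n τ = 0 := by
    intro τ hτ
    ext x
    have := h τ hτ x
    simp only [hn, Module.End.mul_apply, LinearMap.sub_apply, Module.End.one_apply, map_sub,
      LinearMap.zero_apply]
    rw [← this, two_smul]
    abel
  have hmul : ∀ s t : G, n (s * t) = n s + n t + n s * n t := by
    intro s t
    simp only [hn, map_mul]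
    noncomm_ring
  have hanti : ∀ s ∈ I, ∀ t ∈ I, n s * n t + n t * n s = 0 := by
    intro s hs t ht
    refine nil_pair _ _ (hsq s hs) (hsq t ht) ?_
    rw [← hmul]
    exact hsq _ (I.mul_mem hs ht)
  have htri : ∀ c ∈ I, ∀ s ∈ I, ∀ t ∈ I, n c * n s * n t = 0 := by
    intro c hc s hs t ht
    have h1 := hanti c hc (s * t) (I.mul_mem hs ht)
    rw [hmul] at h1
    have h2 := hanti c hc s hs
    have h3 := hanti c hc t ht
    have h4 := hanti s hs t ht
    -- `c a b + a b c = 0`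
    have h5 : n c * n s * n t + n s * n t * n c = 0 := by
      have e : n c * n s * n t + n s * n t * n c =
          (n c * (n s + n t + n s * n t) + (n s + n t + n s * n t) * n c)
            - (n c * n s + n s * n c) - (n c * n t + n t * n c) := by noncomm_ring
      rw [e, h1, h2, h3]; simp
    -- `a b c = c a b`
    have h6 : n s * n t * n c = n c * n s * n t := by
      have e : n s * n t * n c - n c * n s * n t =
          n s * (n c * n t + n t * n c) - (n c * n s + n s * n c) * n t := by noncomm_ring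
      rw [← sub_eq_zero, e, h3, h2]; simp
    rw [h6] at h5
    ext x
    have h7 := congrArg (fun f : Module.End 𝒪 X => f x) h5
    simp only [LinearMap.add_apply, LinearMap.zero_apply] at h7
    rw [← two_smul 𝒪] at h7
    exact (tf _ _ h7).resolve_left two_ne_zero
  have hfix : ∀ (τ : G) (z : X), n τ z = 0 → r τ z = z := by
    intro τ z hz
    simp only [hn, LinearMap.sub_apply, Module.End.one_apply] at hz
    exact sub_eq_zero.mp hz
  by_cases c1 : ∃ s ∈ I, ∃ t ∈ I, ∃ x : X, n s (n t x) ≠ 0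
  · obtain ⟨s, hs, t, ht, x, hx⟩ := c1
    refine ⟨_, hx, fun τ hτ => hfix τ _ ?_⟩
    exact congrArg (fun f : Module.End 𝒪 X => f x) (htri τ hτ s hs t ht)
  push Not at c1
  by_cases c2 : ∃ s ∈ I, ∃ x : X, n s x ≠ 0
  · obtain ⟨s, hs, x, hx⟩ := c2
    exact ⟨_, hx, fun τ hτ => hfix τ _ (c1 τ hτ s hs x)⟩
  push Not at c2
  obtain ⟨x, hx⟩ := exists_ne (0 : X)
  exact ⟨x, hx, fun τ hτ => hfix τ _ (c2 τ hτ x)⟩

/-- **CONS.**  The exact conclusion of S36 for a character `χ` of the Hecke algebra away from `S`. -/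
theorem consumer (p : ℕ) [Fact p.Prime] (N : ℕ) [NeZero N] (S : Finset ℕ)
    (hpS : p ∈ S) (hNS : ∀ q : ℕ, q.Prime → q ∣ N → q ∈ S)
    (𝒪' : Type) [CommRing 𝒪'] [IsDomain 𝒪'] [IsDiscreteValuationRing 𝒪']
    [IsAdicComplete (IsLocalRing.maximalIdeal 𝒪') 𝒪'] [Finite (IsLocalRing.ResidueField 𝒪')]
    [CharZero 𝒪'] (hp : (p : 𝒪') ∈ IsLocalRing.maximalIdeal 𝒪')
    (χ : CuspForm.heckeAlgebra N 2 (↑S : Set ℕ) →+* 𝒪') (𝔗 : Tower p N)
    (hkey : ∀ h : 𝒪' ⊗[ℤ] 𝔗.H, h ≠ 0 →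
      (∀ (ℓ : ℕ) (hℓ : ℓ.Prime) (hℓN : ¬ ℓ ∣ N) (hℓS : ℓ ∉ (↑S : Set ℕ)),
        (𝔗.actH (CuspForm.heckeAlgebra.T hℓ hℓN (Set.notMem_empty ℓ))).baseChange 𝒪' h =
          χ (CuspForm.heckeAlgebra.T hℓ hℓN hℓS) • h) →
      ∀ q : ℕ, q.Prime → q ≠ p → N.factorization q = 2 →
        ∃ P : ValuationSubring Qb, P.LiesOverPrime q ∧ ∃ d : 𝒪', d ≠ 0 ∧
          ∀ (n : ℕ), ∀ y ∈ Submodule.span 𝒪'
              (Set.range fun g' : GQ => 𝔗.actM 𝒪' n g' (𝔗.ιM 𝒪' n h)),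
            (∀ τ ∈ P.inertiaSubgroupIn ℚ, 𝔗.actM 𝒪' n τ y = y) → d • y = 0) :
    ∃ (O'' : Type) (_ : CommRing O'') (_ : IsDomain O'') (_ : IsDiscreteValuationRing O'')
      (_ : IsAdicComplete (IsLocalRing.maximalIdeal O'') O'')
      (_ : Finite (IsLocalRing.ResidueField O''))
      (_ : CharZero O'') (_ : Algebra 𝒪' O'') (_ : Module.Finite 𝒪' O'')
      (_ : IsLocalHom (algebraMap 𝒪' O'')),
      Function.Injective (algebraMap 𝒪' O'') ∧
      ∃ ρ : GaloisRepAdic O'',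
        (∀ (ℓ : ℕ) (hℓ : ℓ.Prime) (hℓM : ¬ ℓ ∣ N) (hℓS : ℓ ∉ (↑S : Set ℕ)),
          ∀ A : ValuationSubring (AlgebraicClosure ℚ), A.LiesOverPrime ℓ →
            ∀ σ : AlgebraicClosure ℚ ≃ₐ[ℚ] AlgebraicClosure ℚ, A.IsFrobeniusAt σ ℓ →
              LinearMap.charpoly (ρ.ρ σ) =
                X ^ 2 - C (algebraMap 𝒪' O'' (χ (CuspForm.heckeAlgebra.T hℓ hℓM hℓS))) * X
                  + C ((ℓ : O''))) ∧
        (∀ q : ℕ, q.Prime → q ≠ p → N.factorization q = 2 → ¬ ρ.IsUnipotentOnInertiaAt q) := by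
  obtain ⟨δ, hδ⟩ := exists_cyclo p 𝒪' hp
  obtain ⟨c, hc, hcζ⟩ := exists_complexConj
  obtain ⟨h, hh0, hheig⟩ := 𝔗.exists_eigenvector (↑S : Set ℕ) χ
  obtain ⟨D, ev, hevr, hevspan, hevinj⟩ := exists_traceDataE 𝔗 S hpS hNS hp χ δ hδ h hh0 hheig
  have := D.nontriv
  obtain ⟨M, s, htr, hdet, hcont⟩ := exists_matrix_rep D.tf D.r δ D.t D.rel c hc (hδ.conj hp hcζ)
  have hcont' : ∀ n : ℕ, ∃ L : IntermediateField ℚ Qb, FiniteDimensional ℚ L ∧
      ∀ σ : GQ, (∀ z ∈ L, σ z = z) → ∀ i j, (M σ - 1) i j ∈ maximalIdeal 𝒪' ^ n := by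
    intro n
    obtain ⟨L, hL, h⟩ := D.cont (n + s)
    exact ⟨L, hL, fun σ hσ => hcont n σ (h σ hσ)⟩
  refine ⟨𝒪', inferInstance, inferInstance, inferInstance, inferInstance, inferInstance,
    inferInstance, Algebra.id 𝒪', inferInstance, ?_, Function.injective_id,
    Fermat.Agent.S30.repOfMatrix M hcont', ?_, ?_⟩
  · exact ⟨fun a ha => ha⟩
  · intro ℓ hℓ hℓN hℓS A hA σ hσ
    have hℓp : ℓ ≠ p := fun h => hℓS (h ▸ hpS)
    change LinearMap.charpoly (Matrix.toLinAlgEquiv' (M σ)) = _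
    have h1 : LinearMap.charpoly (Matrix.toLinAlgEquiv' (M σ)) = (M σ).charpoly := by
      exact Matrix.charpoly_toLin' (M σ)
    rw [h1, Matrix.charpoly_fin_two, htr, hdet, D.frob ℓ hℓ hℓN hℓS A hA σ hσ,
      hδ.frob hp hℓ hℓp hA hσ]
    rfl
  · intro q hq hqp hq2 hU
    obtain ⟨P, hP, d, hd, hinv⟩ := hkey h hh0 hheig q hq hqp hq2
    have hrel : ∀ τ ∈ P.inertiaSubgroupIn ℚ, ∀ x : D.X,
        D.r τ (D.r τ x) - (2 : 𝒪') • D.r τ x + x = 0 := by
      intro τ hτ x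
      have h0 : LinearMap.charpoly (Matrix.toLinAlgEquiv' (M τ)) = (X - 1) ^ 2 := hU P hP τ hτ
      have h1 : LinearMap.charpoly (Matrix.toLinAlgEquiv' (M τ)) = (M τ).charpoly := by
        exact Matrix.charpoly_toLin' (M τ)
      rw [h1, Matrix.charpoly_fin_two, htr, hdet] at h0
      have e1 : D.t τ = 2 := by
        have := congrArg (fun f : 𝒪'[X] => f.coeff 1) h0
        have e : ((X : 𝒪'[X]) - 1) ^ 2 = X ^ 2 - C 2 * X + C 1 := by
          simp only [map_ofNat, map_one]; ring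
        rw [e] at this
        simp only [coeff_add, coeff_sub, coeff_X_pow, coeff_C_mul, coeff_X_one, coeff_C] at this
        simpa using this
      have e2 : (δ τ : 𝒪') = 1 := by
        have := congrArg (fun f : 𝒪'[X] => f.coeff 0) h0
        have e : ((X : 𝒪'[X]) - 1) ^ 2 = X ^ 2 - C 2 * X + C 1 := by
          simp only [map_ofNat, map_one]; ring
        rw [e] at this
        simpa [coeff_X, coeff_C, coeff_X_pow] using this
      have h2 := D.rel τ x
      rwa [e1, e2, one_smul] at h2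
    obtain ⟨x, hx0, hxfix⟩ := exists_fixed_of_unip D.tf D.r (P.inertiaSubgroupIn ℚ) hrel
    have h3 : ∀ n, ev n (d • x) = 0 := by
      intro n
      rw [map_smul]
      refine hinv n _ (hevspan n x) (fun τ hτ => ?_)
      rw [← hevr, hxfix τ hτ]
    exact (D.tf d x (hevinj _ h3)).elim hd hx0

end Fermat.Agent.S36
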