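import Fermat.Agent.S37.FFRiemann
import Fermat.Agent.GR.ES

/-!
# S36, piece DESC: descent of Kummer classes to Galois invariant functions

`desc_exists_fixed_rep`: if `m ∣ div u` and `galF τ u ∈ u (F^×)^m` for all `τ` in a subgroup `G` of the absolute
Galois group, then `c u f^m` is fixed by `G` for suitable `c ∈ ℚ̄^×`, `f ∈ F^×`.

Proof: `v` = the place at infinity (order of the `q`-expansion), which is Galois invariant.  Among the `f ≠ 0` with
`m div f + div u ≥ 0` outside `v` (they exist by the uniform Riemann bound) take `f₀` of maximal order at `v`; it is unique up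
to a constant.  So `galF τ (u f₀^m) = c_τ u f₀^m`, and the constants disappear when the leading coefficient of the `q`-expansion is
normalised to `1`.
-/

set_option autoImplicit false

namespace Fermat.Agent.S36

open AlgebraicCurve IntermediateField Fermat.Agent.S24 Fermat.Agent.S18

section Abstract

variable {K F : Type*} [Field K] [Field F] [Algebra K F]

/-- a function without poles outside `v` has no zero at `v`. -/
theorem desc_ord_le_zero [IsAlgClosed K] [CharZero K] (hFF : IsFF K F) (v : Place K F) {w : F}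
    (hw : w ≠ 0) (h : ∀ P : Place K F, P ≠ v → 0 ≤ P.ord w) : v.ord w ≤ 0 := by
  by_contra hcon
  push Not at hcon
  have h0 := RI.finsum_ord_eq_zero hFF hw
  have h1 := single_le_finsum (f := fun P : Place K F => P.ord w) v (hFF.finite_ord_ne_zero hw)
    (fun P => by
      by_cases hP : P = v
      · rw [hP]; exact hcon.le
      · exact h P hP)
  rw [h0] at h1
  exact absurd hcon (not_lt.mpr h1)

/-- the set of admissible `f`. -/
def DescAdm (v : Place K F) (m : ℕ) (u f : F) : Prop :=
  f ≠ 0 ∧ ∀ P : Place K F, P ≠ v → 0 ≤ (m : ℤ) * P.ord f + P.ord u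

theorem desc_exists_adm [IsAlgClosed K] [CharZero K] (hFF : IsFF K F) (v : Place K F) {m : ℕ}
    (hm : 0 < m) {u : F} (hu0 : u ≠ 0) (hu : ∀ P : Place K F, (m : ℤ) ∣ P.ord u) :
    ∃ f : F, DescAdm v m u f := by
  classical
  obtain ⟨E₀, -, hE₀⟩ := S37.exists_riemann_bound hFF
  have hm' : (m : ℤ) ≠ 0 := by exact_mod_cast hm.ne'
  let Du : Divisor K F := Finsupp.ofSupportFinite (fun P => P.ord u) (hFF.finite_ord_ne_zero hu0)
  have hDu : ∀ P, Du P = P.ord u := fun P => rfl
  let D : Divisor K F := Finsupp.ofSupportFinite (fun P => P.ord u / (m : ℤ))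
    ((hFF.finite_ord_ne_zero hu0).subset (by
      intro P hP
      rw [Function.mem_support] at hP
      intro h0
      apply hP
      change P.ord u = 0 at h0
      rw [h0, Int.zero_ediv]))
  have hD : ∀ P, (m : ℤ) * D P = P.ord u := fun P => Int.mul_ediv_cancel' (hu P)
  have hDD : (m : ℤ) • D = Du := by
    ext P
    rw [Finsupp.smul_apply, smul_eq_mul, hD, hDu]
  have hdeg : Divisor.degree D = 0 := by
    have h1 := hFF.degree_eq_zero_of_principal hu0 Du hDu
    rw [← hDD, map_zsmul, smul_eq_mul] at h1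
    exact (mul_eq_zero.mp h1).resolve_left hm'
  set d : ℤ := Divisor.degree E₀ with hd
  obtain ⟨f, hf0, hf⟩ := hE₀ (D - E₀ + Finsupp.single v d) (by
    rw [map_add, map_sub, Divisor.degree_single, hFF.deg_eq_one, ← hd, hdeg]
    push_cast
    ring)
  refine ⟨f, hf0, fun P hP => ?_⟩
  have h1 := hf P
  rw [Finsupp.add_apply, Finsupp.sub_apply, Finsupp.single_eq_of_ne hP] at h1
  rw [← hD P]
  have h2 : 0 ≤ P.ord f + D P := by linarith
  have : (m : ℤ) * P.ord f + (m : ℤ) * D P = (m : ℤ) * (P.ord f + D P) := by ring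
  rw [this]
  positivity

theorem DescAdm.ord_le [IsAlgClosed K] [CharZero K] (hFF : IsFF K F) {v : Place K F} {m : ℕ}
    (hm : 0 < m) {u f : F} (hu0 : u ≠ 0) (hf : DescAdm v m u f) : v.ord f ≤ |v.ord u| := by
  obtain ⟨hf0, hf⟩ := hf
  have h1 := desc_ord_le_zero hFF v (w := f ^ m * u) (mul_ne_zero (pow_ne_zero _ hf0) hu0)
    (fun P hP => by
      rw [P.ord_mul (pow_ne_zero _ hf0) hu0, ord_pow]
      exact hf P hP)
  rw [v.ord_mul (pow_ne_zero _ hf0) hu0, ord_pow] at h1
  by_contra hcon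
  push Not at hcon
  have h2 : 0 ≤ |v.ord u| := abs_nonneg _
  have h3 : -|v.ord u| ≤ v.ord u := neg_abs_le _
  have h4 : (1 : ℤ) ≤ m := by exact_mod_cast hm
  nlinarith

/-- an admissible function of maximal order at `v`; it is unique up to a constant. -/
theorem desc_exists_max [IsAlgClosed K] [CharZero K] (hFF : IsFF K F) (v : Place K F) {m : ℕ}
    (hm : 0 < m) {u : F} (hu0 : u ≠ 0) (hu : ∀ P : Place K F, (m : ℤ) ∣ P.ord u) :
    ∃ f₀ : F, DescAdm v m u f₀ ∧ ∀ g : F, DescAdm v m u g → v.ord g = v.ord f₀ →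
      ∃ c : K, c ≠ 0 ∧ g = algebraMap K F c * f₀ := by
  classical
  obtain ⟨f₁, hf₁⟩ := desc_exists_adm hFF v hm hu0 hu
  obtain ⟨n, ⟨f₀, hf₀, rfl⟩, hmax⟩ := Int.exists_greatest_of_bdd
    (P := fun n : ℤ => ∃ f : F, DescAdm v m u f ∧ v.ord f = n)
    ⟨|v.ord u|, by rintro z ⟨f, hf, rfl⟩; exact hf.ord_le hFF hm hu0⟩ ⟨_, f₁, hf₁, rfl⟩
  refine ⟨f₀, hf₀, fun g hg hgo => ?_⟩
  have hf0 := hf₀.1
  have hg0 := hg.1
  have hr0 : g / f₀ ≠ 0 := div_ne_zero hg0 hf0
  have hr : g / f₀ ∈ v.toValuationSubring := by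
    rw [← ord_nonneg_iff v hr0, div_eq_mul_inv, v.ord_mul hg0 (inv_ne_zero hf0), v.ord_inv, hgo]
    omega
  obtain ⟨c, hc | hc⟩ := hFF.exists_residue v hr
  · refine ⟨c, ?_, ?_⟩
    · rintro rfl
      rw [map_zero] at hc
      exact hr0 hc
    · rw [← hc, div_mul_cancel₀ _ hf0]
  · exfalso
    have hne : g / f₀ - algebraMap K F c ≠ 0 := by
      intro h0
      rw [h0, v.ord_zero] at hc
      exact lt_irrefl _ hc
    have hg' : g - algebraMap K F c * f₀ = (g / f₀ - algebraMap K F c) * f₀ := by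
      rw [sub_mul, div_mul_cancel₀ _ hf0]
    have hg'0 : g - algebraMap K F c * f₀ ≠ 0 := by
      rw [hg']; exact mul_ne_zero hne hf0
    have hadm : DescAdm v m u (g - algebraMap K F c * f₀) := by
      refine ⟨hg'0, fun P hP => ?_⟩
      by_cases hc0 : c = 0
      · rw [hc0, map_zero, zero_mul, sub_zero]
        exact hg.2 P hP
      have h1 : min (P.ord g) (P.ord (-(algebraMap K F c * f₀))) ≤
          P.ord (g + -(algebraMap K F c * f₀)) := le_ord_add P (by rwa [← sub_eq_add_neg])
      rw [← sub_eq_add_neg, ← neg_mul, ← map_neg, P.ord_mul (by simpa using hc0) hf0,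
        ord_algebraMap, zero_add] at h1
      have h2 := hg.2 P hP
      have h3 := hf₀.2 P hP
      have h4 : (0 : ℤ) ≤ m := by positivity
      rcases min_le_iff.mp h1 with h5 | h5
      · nlinarith
      · nlinarith
    have h6 := hmax _ ⟨_, hadm, rfl⟩
    rw [hg', v.ord_mul hne hf0] at h6
    omega

/-- the semilinear step. -/
theorem desc_semilinear {v : Place K F} {m : ℕ} (hm : 0 < m) {u f₀ : F} (hu0 : u ≠ 0)
    (hf₀ : DescAdm v m u f₀)
    (huniq : ∀ g : F, DescAdm v m u g → v.ord g = v.ord f₀ →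
      ∃ c : K, c ≠ 0 ∧ g = algebraMap K F c * f₀)
    (γ : SemilinearAut K F) (hγ : γ • v = v) {h : F} (hh : γ • u = u * h ^ m) :
    ∃ c : K, c ≠ 0 ∧ γ • (u * f₀ ^ m) = algebraMap K F c * (u * f₀ ^ m) := by
  have hm' : (m : ℤ) ≠ 0 := by exact_mod_cast hm.ne'
  have hf0 := hf₀.1
  have hγu0 : γ • u ≠ 0 := by
    rw [SemilinearAut.smul_def]
    exact (map_ne_zero_iff _ (SemilinearAut.toRingAut γ).injective).mpr hu0
  have hγf0 : γ • f₀ ≠ 0 := by
    rw [SemilinearAut.smul_def]
    exact (map_ne_zero_iff _ (SemilinearAut.toRingAut γ).injective).mpr hf0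
  have hh0 : h ≠ 0 := by
    rintro rfl
    rw [zero_pow hm.ne', mul_zero] at hh
    exact hγu0 hh
  have key : ∀ P : Place K F, (m : ℤ) * P.ord (γ • f₀ * h) + P.ord u =
      (m : ℤ) * (γ⁻¹ • P).ord f₀ + (γ⁻¹ • P).ord u := by
    intro P
    have h1 := SemilinearAut.ord_smul γ (γ⁻¹ • P) f₀
    have h2 := SemilinearAut.ord_smul γ (γ⁻¹ • P) u
    rw [smul_inv_smul] at h1 h2
    rw [hh, P.ord_mul hu0 (pow_ne_zero _ hh0), ord_pow] at h2
    rw [P.ord_mul hγf0 hh0, h1, ← h2]
    ring
  have hinv : γ⁻¹ • v = v := by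
    conv_lhs => rw [← hγ]
    rw [inv_smul_smul]
  have hadm : DescAdm v m u (γ • f₀ * h) := by
    refine ⟨mul_ne_zero hγf0 hh0, fun P hP => ?_⟩
    rw [key P]
    refine hf₀.2 _ fun hP' => hP ?_
    rw [← smul_inv_smul γ P, hP', hγ]
  have hord : v.ord (γ • f₀ * h) = v.ord f₀ := by
    have h1 := key v
    rw [hinv] at h1
    have h2 : (m : ℤ) * v.ord (γ • f₀ * h) = (m : ℤ) * v.ord f₀ := by linarith
    exact mul_left_cancel₀ hm' h2
  obtain ⟨c, hc, hg⟩ := huniq _ hadm hord
  refine ⟨c ^ m, pow_ne_zero _ hc, ?_⟩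
  rw [smul_mul', smul_pow', hh, map_pow, mul_assoc, ← mul_pow, mul_comm h, hg, mul_pow]
  ring

end Abstract

section PlaceOfOrd

variable {K F : Type*} [Field K] [Field F] [Algebra K F]

/-- a `ℤ`-valued valuation, trivial on `K`, non trivial on `F`, defines a place. -/
theorem desc_exists_place (o : F → ℤ)
    (hmul : ∀ x y : F, x ≠ 0 → y ≠ 0 → o (x * y) = o x + o y)
    (hadd : ∀ x y : F, x ≠ 0 → y ≠ 0 → x + y ≠ 0 → min (o x) (o y) ≤ o (x + y))
    (hK : ∀ a : K, a ≠ 0 → o (algebraMap K F a) = 0)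
    (hne : ∃ x : F, x ≠ 0 ∧ o x ≠ 0) :
    ∃ P : Place K F, ∀ f : F, f ≠ 0 → (f ∈ P.toValuationSubring ↔ 0 ≤ o f) := by
  have h1 : o 1 = 0 := by
    have := hK 1 one_ne_zero
    rwa [map_one] at this
  have hneg1 : o (-1) = 0 := by
    have := hK (-1) (neg_ne_zero.mpr one_ne_zero)
    rwa [map_neg, map_one] at this
  have hneg : ∀ x : F, x ≠ 0 → o (-x) = o x := by
    intro x hx
    rw [← neg_one_mul, hmul _ _ (neg_ne_zero.mpr one_ne_zero) hx, hneg1, zero_add]
  have hinv : ∀ x : F, x ≠ 0 → o x⁻¹ = - o x := by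
    intro x hx
    have := hmul x x⁻¹ hx (inv_ne_zero hx)
    rw [mul_inv_cancel₀ hx, h1] at this
    omega
  let O : ValuationSubring F :=
    { carrier := {f | f = 0 ∨ 0 ≤ o f}
      mul_mem' := by
        rintro x y (rfl | hx) hy
        · exact Or.inl (zero_mul _)
        rcases hy with rfl | hy
        · exact Or.inl (mul_zero _)
        by_cases hx0 : x = 0
        · exact Or.inl (by rw [hx0, zero_mul])
        by_cases hy0 : y = 0
        · exact Or.inl (by rw [hy0, mul_zero])
        exact Or.inr (by rw [hmul x y hx0 hy0]; omega)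
      one_mem' := Or.inr h1.ge
      add_mem' := by
        rintro x y hx hy
        by_cases hx0 : x = 0
        · rw [hx0, zero_add]; exact hy
        by_cases hy0 : y = 0
        · rw [hy0, add_zero]; exact hx
        by_cases hxy : x + y = 0
        · exact Or.inl hxy
        exact Or.inr (le_trans (le_min (hx.resolve_left hx0) (hy.resolve_left hy0))
          (hadd x y hx0 hy0 hxy))
      zero_mem' := Or.inl rfl
      neg_mem' := by
        rintro x hx
        by_cases hx0 : x = 0
        · exact Or.inl (by rw [hx0, neg_zero])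
        exact Or.inr (by rw [hneg x hx0]; exact hx.resolve_left hx0)
      mem_or_inv_mem' := by
        intro x
        by_cases hx0 : x = 0
        · exact Or.inl (Or.inl hx0)
        rcases le_total 0 (o x) with h | h
        · exact Or.inl (Or.inr h)
        · exact Or.inr (Or.inr (by rw [hinv x hx0]; omega)) }
  have hmem : ∀ f : F, f ≠ 0 → (f ∈ O ↔ 0 ≤ o f) := by
    intro f hf
    constructor
    · intro h
      exact (h : f = 0 ∨ 0 ≤ o f).resolve_left hf
    · intro h
      exact (Or.inr h : f = 0 ∨ 0 ≤ o f)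
  have hKO : ∀ a : K, algebraMap K F a ∈ O := by
    intro a
    by_cases ha : a = 0
    · rw [ha, map_zero]; exact O.zero_mem
    · exact (hmem _ (by simpa using ha)).mpr (hK a ha).ge
  have htop : O ≠ ⊤ := by
    intro htop
    obtain ⟨x, hx0, hx⟩ := hne
    have h2 : x ∈ O := by rw [htop]; exact ValuationSubring.mem_top x
    have h3 : x⁻¹ ∈ O := by rw [htop]; exact ValuationSubring.mem_top _
    rw [hmem _ hx0] at h2
    rw [hmem _ (inv_ne_zero hx0), hinv x hx0] at h3
    omega
  have hpid : IsPrincipalIdealRing O := by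
    have hwf : WfDvdMonoid O := by
      classical
      let μ : O → ℕ∞ := fun a => if a = 0 then ⊤ else ((o (a : F)).toNat : ℕ∞)
      refine ⟨Subrelation.wf (r := InvImage (· < ·) μ) ?_ (InvImage.wf μ wellFounded_lt)⟩
      rintro a b ⟨ha, x, hx, rfl⟩
      have ha' : (a : F) ≠ 0 := by simpa using ha
      change μ a < μ (a * x)
      by_cases hx0 : x = 0
      · simp only [μ, hx0, mul_zero, if_true, if_neg ha]
        exact WithTop.coe_lt_top _
      · have hx' : (x : F) ≠ 0 := by simpa using hx0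
        have hax : a * x ≠ 0 := mul_ne_zero ha hx0
        simp only [μ, if_neg ha, if_neg hax]
        have h1 : 0 ≤ o (a : F) := (hmem _ ha').1 a.2
        have h2 : 0 < o (x : F) := by
          by_contra hle
          apply hx
          have h4 : ((x : F))⁻¹ ∈ O := by
            rw [hmem _ (inv_ne_zero hx'), hinv _ hx']; omega
          refine IsUnit.of_mul_eq_one ⟨_, h4⟩ ?_
          apply Subtype.ext
          simp [hx']
        have h5 : o ((a * x : O) : F) = o (a : F) + o (x : F) := by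
          have h6 : ((a * x : O) : F) = (a : F) * (x : F) := rfl
          rw [h6, hmul _ _ ha' hx']
        rw [h5]
        exact_mod_cast (by omega : (o (a : F)).toNat < (o (a : F) + o (x : F)).toNat)
    exact ((IsBezout.TFAE (R := O)).out 3 1).1 hwf
  exact ⟨⟨O, hKO, htop, hpid⟩, hmem⟩

end PlaceOfOrd

section Modular

open ModularCurve Fermat.Agent.GR HahnSeries

/-- the order of the `q`-expansion. -/
noncomputable def descOrdQ (N : ℕ) (f : FN N) : ℤ := (f : LaurentSeries Kb).order

theorem descOrdQ_galF (N : ℕ) (σ : GQ) (f : FN N) : descOrdQ N (galF N σ f) = descOrdQ N f := by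
  unfold descOrdQ
  rw [coe_galF]
  set x : LaurentSeries Kb := (f : LaurentSeries Kb) with hx
  by_cases hx0 : x = 0
  · rw [hx0, map_zero]
  have hinj : Function.Injective ((σ : Kb →+* Kb)) := (σ : Kb →+* Kb).injective
  have hy0 : coeffMap (σ : Kb →+* Kb) x ≠ 0 := by
    intro h
    apply hx0
    ext k
    have := congrArg (fun z => z.coeff k) h
    simp only [coeffMap_coeff, HahnSeries.coeff_zero] at this
    rw [HahnSeries.coeff_zero]
    exact (map_eq_zero _).mp this
  apply le_antisymm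
  · apply HahnSeries.order_le_of_coeff_ne_zero
    rw [coeffMap_coeff]
    intro h
    exact hx0 (HahnSeries.coeff_order_eq_zero.mp ((map_eq_zero _).mp h))
  · apply HahnSeries.order_le_of_coeff_ne_zero
    intro h
    apply hy0
    apply HahnSeries.coeff_order_eq_zero.mp
    rw [coeffMap_coeff, h, map_zero]

theorem desc_exists_vInf (N : ℕ) [NeZero N] : ∃ v : Place Kb (FN N),
    ∀ f : FN N, f ≠ 0 → (f ∈ v.toValuationSubring ↔ 0 ≤ descOrdQ N f) := by
  have hcoe : ∀ x : FN N, x ≠ 0 → (x : LaurentSeries Kb) ≠ 0 := fun x hx h => hx (Subtype.ext h)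
  have hK : ∀ a : Kb, descOrdQ N (algebraMap Kb (FN N) a) = 0 := by
    intro a
    unfold descOrdQ
    rw [gs_coe_algebraMap, HahnSeries.order_C]
  refine desc_exists_place (descOrdQ N) ?_ ?_ (fun a _ => hK a) ?_
  · intro x y hx hy
    exact HahnSeries.order_mul (hcoe x hx) (hcoe y hy)
  · intro x y _ _ hxy
    exact HahnSeries.min_order_le_order_add (hcoe _ hxy)
  · obtain ⟨x, hx, -⟩ := isFF_FN N
    by_contra hcon
    push Not at hcon
    have hx0 : x ≠ 0 := by
      rintro rfl
      exact hx isAlgebraic_zero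
    set a : Kb := (x : LaurentSeries Kb).coeff 0 with ha
    have hxa : x - algebraMap Kb (FN N) a ≠ 0 := by
      intro h
      apply hx
      rw [sub_eq_zero.mp h]
      exact isAlgebraic_algebraMap a
    have h1 := hcon _ hxa
    have h2 : ((x - algebraMap Kb (FN N) a : FN N) : LaurentSeries Kb).coeff 0 = 0 := by
      have : ((x - algebraMap Kb (FN N) a : FN N) : LaurentSeries Kb) =
          (x : LaurentSeries Kb) - HahnSeries.C a := by
        rw [← gs_coe_algebraMap (N := N)]; rfl
      rw [this, HahnSeries.coeff_sub, HahnSeries.C_apply, HahnSeries.coeff_single_same, ← ha, sub_self]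
    unfold descOrdQ at h1
    rw [← h1] at h2
    exact hcoe _ hxa (HahnSeries.coeff_order_eq_zero.mp h2)

theorem desc_vInf_smul {N : ℕ} {v : Place Kb (FN N)}
    (hv : ∀ f : FN N, f ≠ 0 → (f ∈ v.toValuationSubring ↔ 0 ≤ descOrdQ N f)) (σ : GQ) :
    arithmeticGalois (modularFunctionFieldFull N) σ • v = v := by
  apply Place.ext
  rw [SemilinearAut.smul_toValuationSubring]
  ext f
  rw [ValuationSubring.mem_pointwise_smul_iff_inv_smul_mem]
  by_cases hf : f = 0
  · rw [hf, smul_zero]
  have h1 : (arithmeticGalois (modularFunctionFieldFull N) σ)⁻¹ • f = galF N σ⁻¹ f := by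
    rw [← map_inv]; rfl
  rw [h1, hv _ ((map_ne_zero_iff _ (galF N σ⁻¹).injective).mpr hf), hv _ hf, descOrdQ_galF]

theorem desc_galF_algebraMap (N : ℕ) (σ : GQ) (c : Kb) :
    galF N σ (algebraMap Kb (FN N) c) = algebraMap Kb (FN N) (σ c) :=
  arithmeticRingAut_algebraMap (modularFunctionFieldFull N) σ c

/-- normalisation of the leading coefficient: an eigenvector of all `galF τ`, `τ ∈ G`, becomes
invariant after division by its leading coefficient. -/
theorem desc_normalise {N : ℕ} [NeZero N] {u : FN N} (hu0 : u ≠ 0) :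
    ∃ a : Kb, a ≠ 0 ∧ ∀ τ : GQ, (∃ c : Kb, galF N τ u = algebraMap Kb (FN N) c * u) →
      galF N τ (algebraMap Kb (FN N) a * u) = algebraMap Kb (FN N) a * u := by
  have hcoe : (u : LaurentSeries Kb) ≠ 0 := fun h => hu0 (Subtype.ext h)
  set b : Kb := (u : LaurentSeries Kb).coeff (u : LaurentSeries Kb).order with hb
  have hb0 : b ≠ 0 := fun h => hcoe (HahnSeries.coeff_order_eq_zero.mp h)
  refine ⟨b⁻¹, inv_ne_zero hb0, ?_⟩
  rintro τ ⟨c, hc⟩
  have h1 : τ b = c * b := by
    have h2 := congrArg (fun z : FN N => (z : LaurentSeries Kb).coeff (u : LaurentSeries Kb).order) hc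
    simp only [coe_galF, coeffMap_coeff] at h2
    have h3 : ((algebraMap Kb (FN N) c * u : FN N) : LaurentSeries Kb) =
        HahnSeries.C c * (u : LaurentSeries Kb) := by
      rw [← gs_coe_algebraMap (N := N)]; rfl
    rw [h3, HahnSeries.C_mul_eq_smul, HahnSeries.coeff_smul, smul_eq_mul] at h2
    exact h2
  have hτb : τ b ≠ 0 := (map_ne_zero _).mpr hb0
  have hc0 : c ≠ 0 := by
    rintro rfl
    rw [zero_mul] at h1
    exact hτb h1
  rw [map_mul, desc_galF_algebraMap, hc, ← mul_assoc, ← map_mul, map_inv₀, h1]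
  congr 2
  field_simp

/-- **S36, piece DESC.**  If `m ∣ div u` and the class of `u` modulo `m`-th powers is fixed by all
`τ ∈ G`, then `u` can be changed by a constant and an `m`-th power into a function fixed by `G`. -/
theorem desc_exists_fixed_rep {N : ℕ} [NeZero N] {m : ℕ} (hm : 0 < m) (G : Subgroup GQ) {u : FN N}
    (hu0 : u ≠ 0) (hu : DvdOrd N m u) (hG : ∀ τ ∈ G, ∃ h : FN N, galF N τ u = u * h ^ m) :
    ∃ (f : FN N) (c : Kb), f ≠ 0 ∧ c ≠ 0 ∧ ∀ τ ∈ G,
      galF N τ (algebraMap Kb (FN N) c * u * f ^ m) = algebraMap Kb (FN N) c * u * f ^ m := by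
  obtain ⟨v, hv⟩ := desc_exists_vInf N
  obtain ⟨f₀, hf₀, huniq⟩ := desc_exists_max (isFF_FN N) v hm hu0 hu
  have hne : u * f₀ ^ m ≠ 0 := mul_ne_zero hu0 (pow_ne_zero _ hf₀.1)
  obtain ⟨a, ha, hnorm⟩ := desc_normalise hne
  refine ⟨f₀, a, hf₀.1, ha, fun τ hτ => ?_⟩
  obtain ⟨h, hh⟩ := hG τ hτ
  obtain ⟨c, -, hc⟩ := desc_semilinear hm hu0 hf₀ huniq
    (arithmeticGalois (modularFunctionFieldFull N) τ) (desc_vInf_smul hv τ) (h := h) hh
  rw [mul_assoc]
  exact hnorm τ ⟨c, hc⟩

end Modular

end Fermat.Agent.S36
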