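import Mathlib

/-!
# S36: invariants commute with a flat base change (finite modules)
-/

set_option autoImplicit false

namespace Fermat.Agent.S36

open TensorProduct

theorem flat_mem_span_of_baseChange_eq_zero {𝒪 H B : Type*} [CommRing 𝒪] [Module.Flat ℤ 𝒪]
    [AddCommGroup H] [AddCommGroup B] (f : H →ₗ[ℤ] B) (y : 𝒪 ⊗[ℤ] H)
    (hy : f.baseChange 𝒪 y = 0) :
    y ∈ Submodule.span 𝒪 {z : 𝒪 ⊗[ℤ] H | ∃ h₀ : H, f h₀ = 0 ∧ z = (1 : 𝒪) ⊗ₜ[ℤ] h₀} := by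
  have hex : Function.Exact (LinearMap.ker f).subtype f := LinearMap.exact_subtype_ker_map f
  have hex' := Module.Flat.lTensor_exact 𝒪 hex
  obtain ⟨z, rfl⟩ := (hex' y).mp hy
  clear hy
  induction z using TensorProduct.induction_on with
  | zero => rw [map_zero]; exact zero_mem _
  | tmul c k =>
    rw [LinearMap.lTensor_tmul, Submodule.subtype_apply]
    have : c ⊗ₜ[ℤ] (k : H) = c • ((1 : 𝒪) ⊗ₜ[ℤ] (k : H)) := by
      rw [TensorProduct.smul_tmul', smul_eq_mul, mul_one]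
    rw [this]
    exact Submodule.smul_mem _ _ (Submodule.subset_span ⟨k, k.2, rfl⟩)
  | add a b ha hb => rw [map_add]; exact add_mem ha hb

theorem flat_mem_span_pi {𝒪 H B ι : Type*} [CommRing 𝒪] [Module.Flat ℤ 𝒪]
    [AddCommGroup H] [AddCommGroup B] [Finite ι] (f : ι → H →ₗ[ℤ] B) (y : 𝒪 ⊗[ℤ] H)
    (hy : ∀ i, (f i).baseChange 𝒪 y = 0) :
    y ∈ Submodule.span 𝒪 {z : 𝒪 ⊗[ℤ] H | ∃ h₀ : H, (∀ i, f i h₀ = 0) ∧ z = (1 : 𝒪) ⊗ₜ[ℤ] h₀} := by
  classical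
  have := Fintype.ofFinite ι
  have key : ∀ (y : 𝒪 ⊗[ℤ] H) (i : ι),
      TensorProduct.piRight ℤ 𝒪 𝒪 (fun _ : ι => B) ((LinearMap.pi f).baseChange 𝒪 y) i =
        (f i).baseChange 𝒪 y := by
    intro y i
    induction y using TensorProduct.induction_on with
    | zero => simp
    | tmul c k => simp
    | add a b ha hb => simp only [map_add, Pi.add_apply, ha, hb]
  have h0 : (LinearMap.pi f).baseChange 𝒪 y = 0 := by
    apply (TensorProduct.piRight ℤ 𝒪 𝒪 (fun _ : ι => B)).injective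
    rw [map_zero]
    funext i
    rw [key, hy i]
    rfl
  refine Submodule.span_mono ?_ (flat_mem_span_of_baseChange_eq_zero (LinearMap.pi f) y h0)
  rintro z ⟨h₀, hh, rfl⟩
  exact ⟨h₀, fun i => congrFun hh i, rfl⟩

/-- **invariants commute with a flat base change.** -/
theorem smul_eq_zero_of_inv {𝒪 A G : Type*} [CommRing 𝒪] [Module.Flat ℤ 𝒪] [AddCommGroup A]
    [Finite A] (act : G → A →ₗ[ℤ] A) (I : Set G) (B : AddSubgroup A) (d : ℕ)
    (hB : ∀ b ∈ B, (∀ τ ∈ I, act τ b = b) → d • b = 0) (y : 𝒪 ⊗[ℤ] A)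
    (hy : y ∈ Submodule.span 𝒪 {z : 𝒪 ⊗[ℤ] A | ∃ b ∈ B, z = (1 : 𝒪) ⊗ₜ[ℤ] b})
    (hinv : ∀ τ ∈ I, (act τ).baseChange 𝒪 y = y) : (d : 𝒪) • y = 0 := by
  classical
  let Bm : Submodule ℤ A := AddSubgroup.toIntSubmodule B
  -- lift `y` to `𝒪 ⊗ B`
  have lift : ∀ y ∈ Submodule.span 𝒪 {z : 𝒪 ⊗[ℤ] A | ∃ b ∈ B, z = (1 : 𝒪) ⊗ₜ[ℤ] b},
      ∃ y' : 𝒪 ⊗[ℤ] Bm, Bm.subtype.baseChange 𝒪 y' = y := by
    intro y hy
    induction hy using Submodule.span_induction with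
    | mem x hx =>
      obtain ⟨b, hb, rfl⟩ := hx
      exact ⟨(1 : 𝒪) ⊗ₜ[ℤ] (⟨b, hb⟩ : Bm), rfl⟩
    | zero => exact ⟨0, map_zero _⟩
    | add x y _ _ hx hy =>
      obtain ⟨x', rfl⟩ := hx
      obtain ⟨y', rfl⟩ := hy
      exact ⟨x' + y', map_add _ _ _⟩
    | smul a x _ hx =>
      obtain ⟨x', rfl⟩ := hx
      exact ⟨a • x', map_smul _ _ _⟩
  obtain ⟨y', rfl⟩ := lift y hy
  -- the finite family of endomorphisms
  let ι : Type _ := {φ : A → A // ∃ τ ∈ I, φ = act τ}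
  have : Finite ι := inferInstance
  choose t ht1 ht2 using fun i : ι => i.2
  let f : ι → Bm →ₗ[ℤ] A := fun i => (act (t i) - LinearMap.id).comp Bm.subtype
  have hf : ∀ i, (f i).baseChange 𝒪 y' = 0 := by
    intro i
    have e : ∀ z : 𝒪 ⊗[ℤ] Bm, (f i).baseChange 𝒪 z =
        (act (t i)).baseChange 𝒪 (Bm.subtype.baseChange 𝒪 z) - Bm.subtype.baseChange 𝒪 z := by
      intro z
      induction z using TensorProduct.induction_on with
      | zero => simp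
      | tmul c k => simp [f, TensorProduct.tmul_sub]
      | add a b ha hb => simp only [map_add, ha, hb]; abel
    rw [e, hinv _ (ht1 i), sub_self]
  have hspan := flat_mem_span_pi f y' hf
  have kill : ∀ z ∈ Submodule.span 𝒪
      {z : 𝒪 ⊗[ℤ] Bm | ∃ h₀ : Bm, (∀ i, f i h₀ = 0) ∧ z = (1 : 𝒪) ⊗ₜ[ℤ] h₀}, (d : 𝒪) • z = 0 := by
    intro z hz
    induction hz using Submodule.span_induction with
    | mem x hx =>
      obtain ⟨b, hb, rfl⟩ := hx
      have h1 : d • (b : A) = 0 := by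
        refine hB b b.2 fun τ hτ => ?_
        have h2 := hb ⟨act τ, τ, hτ, rfl⟩
        have h3 : act (t ⟨act τ, τ, hτ, rfl⟩) (b : A) = act τ (b : A) :=
          (congrFun (ht2 ⟨act τ, τ, hτ, rfl⟩) (b : A)).symm
        have h4 : act (t ⟨act τ, τ, hτ, rfl⟩) (b : A) - (b : A) = 0 := h2
        rw [h3] at h4
        exact sub_eq_zero.mp h4
      have h2 : d • b = 0 := Subtype.ext h1
      rw [Nat.cast_smul_eq_nsmul, ← TensorProduct.tmul_smul, h2, TensorProduct.tmul_zero]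
    | zero => simp
    | add x y _ _ hx hy => rw [smul_add, hx, hy, add_zero]
    | smul a x _ hx => rw [smul_comm, hx, smul_zero]
  have hkill := kill y' hspan
  rw [← map_smul, hkill, map_zero]

end Fermat.Agent.S36
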