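import Mathlib
import Fermat.Agent.S13.Minkowski
import Fermat.Agent.S37.Frob

/-!
# S36, piece K0VAL: the value group of the inertia field `ℚ̄^I` at `A ∣ q` is `ℤ · v(q)`
-/

set_option autoImplicit false

namespace Fermat.Agent.S36

open MulAction Pointwise Ideal

section Hilbert

variable (A K L : Type*) {B : Type*} [Field K] [Field L] [Algebra K L] [CommRing A] [CommRing B]
  [Algebra A B] {p : Ideal A} (P : Ideal B) [P.LiesOver p]
  [Algebra A K] [IsFractionRing A K] [Algebra A L] [IsScalarTower A K L] [Algebra B L]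
  [IsScalarTower A B L] [IsFractionRing B L] [MulSemiringAction Gal(L/K) B]
  [SMulDistribClass Gal(L/K) B L]
  (E 𝓞E : Type*) [Field E] [Algebra E L] [IsInertiaField K L P E] [CommRing 𝓞E]
  [Algebra 𝓞E E] [IsFractionRing 𝓞E E] [Algebra 𝓞E B] [Algebra 𝓞E L] [IsScalarTower 𝓞E E L]
  [IsScalarTower 𝓞E B L] (𝓟E : Ideal 𝓞E) [hE : P.LiesOver 𝓟E]
  [IsGalois K L] [IsDedekindDomain A] [IsDedekindDomain B] [Module.Finite A B]
  [Module.IsTorsionFree A B] [Algebra A 𝓞E] [Module.Finite A 𝓞E] [IsScalarTower A 𝓞E B]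
  [IsDedekindDomain 𝓞E] [𝓟E.LiesOver p]
  [FiniteDimensional K L] [Ring.HasFiniteQuotients A] [𝓟E.IsMaximal] [P.IsMaximal]

include K L E P in
/-- the prime of the inertia field below `P` is unramified over `K`. -/
theorem k0_ramificationIdx_eq_one (hp : p ≠ ⊥) : 𝓟E.ramificationIdx A = 1 := by
  have inst₁ : Module.Finite 𝓞E B := Module.Finite.right A 𝓞E B
  have inst₂ : Module.IsTorsionFree 𝓞E B := by
    rw [Module.isTorsionFree_iff_faithfulSMul]
    apply Algebra.IsAlgebraic.faithfulSMul_tower_top A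
  have inst₃ : Module.IsTorsionFree A 𝓞E := Module.IsTorsionFree.of_faithfulSMul _ _ B
  have inst₄ : IsGaloisGroup Gal(L/K) A B := .of_isFractionRing _ _ _ K L
  have inst₅ : IsGaloisGroup (inertia Gal(L/K) P) 𝓞E B := .of_isFractionRing _ _ _ E L
  have h𝓟 : 𝓟E ≠ ⊥ := Ideal.ne_bot_of_liesOver_of_ne_bot hp 𝓟E
  have : p.IsMaximal := over_def P p ▸ Ideal.IsMaximal.under A P
  have : Finite (A ⧸ p) := Ring.HasFiniteQuotients.finiteQuotient hp
  have hfin : Finite (𝓞E ⧸ 𝓟E) := by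
    have : Module.Finite (A ⧸ p) (𝓞E ⧸ 𝓟E) := inferInstance
    exact Module.finite_of_finite (A ⧸ p)
  have h1 : Nat.card (inertia Gal(L/K) P) = p.ramificationIdxIn B :=
    card_inertia_eq_ramificationIdxIn (G := Gal(L/K)) p P
  have h2 : Nat.card (inertia (inertia Gal(L/K) P) P) = 𝓟E.ramificationIdxIn B :=
    card_inertia_eq_ramificationIdxIn (G := inertia Gal(L/K) P) 𝓟E P
  have h3 : inertia (inertia Gal(L/K) P) P = ⊤ := by
    ext σ
    simp only [Subgroup.mem_top, iff_true]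
    intro x
    exact σ.2 x
  rw [h3, Nat.card_congr (Subgroup.topEquiv).toEquiv, h1] at h2
  have := ramificationIdx_tower (R := A) 𝓟E P
  rwa [← ramificationIdxIn_eq_ramificationIdx 𝓟E P (inertia Gal(L/K) P),
    ← h2, ramificationIdxIn_eq_ramificationIdx p P Gal(L/K),
    right_eq_mul₀ <| (ramificationIdx_pos P A).ne'] at this

end Hilbert

open scoped NumberField

/-- Dedekind domain, prime `𝔭` with `e = 1` over `ℤ`-prime `q`: every nonzero element is
`q ^ n` times a `𝔭`-unit. -/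
theorem k0_exists_pow_of_ramificationIdx_eq_one {R : Type*} [CommRing R] [IsDedekindDomain R]
    (𝔭 : Ideal R) [𝔭.IsPrime] (h0 : 𝔭 ≠ ⊥) (q : ℕ)
    (hlo : 𝔭.under ℤ = Ideal.span {(q : ℤ)}) (he : 𝔭.ramificationIdx ℤ = 1)
    (a : R) (ha : a ≠ 0) :
    ∃ (n : ℕ) (s t : R), s ∉ 𝔭 ∧ t ∉ 𝔭 ∧ a * t = s * (q : R) ^ n := by
  rw [ramificationIdx_def, ENat.toNat_eq_iff_eq_natCast, Nat.cast_one, Module.length_eq_one_iff,
    isSimpleModule_iff_isCoatom, ← Ideal.isMaximal_def, IsLocalRing.isMaximal_iff] at he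
  rw [hlo, Ideal.map_span, Set.image_singleton] at he
  have hdvr : IsDiscreteValuationRing (Localization.AtPrime 𝔭) :=
    IsLocalization.AtPrime.isDiscreteValuationRing_of_dedekind_domain R h0 _
  have hirr : Irreducible (algebraMap ℤ (Localization.AtPrime 𝔭) (q : ℤ)) :=
    (IsDiscreteValuationRing.irreducible_iff_uniformizer _).mpr he.symm
  have hinj : Function.Injective (algebraMap R (Localization.AtPrime 𝔭)) :=
    IsLocalization.injective _ 𝔭.primeCompl_le_nonZeroDivisors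
  have ha' : algebraMap R (Localization.AtPrime 𝔭) a ≠ 0 := by
    intro h
    exact ha (hinj (by rw [h, map_zero]))
  obtain ⟨n, u, hu⟩ := IsDiscreteValuationRing.eq_unit_mul_pow_irreducible ha' hirr
  obtain ⟨s, t, hst⟩ := IsLocalization.exists_mk'_eq 𝔭.primeCompl (u : Localization.AtPrime 𝔭)
  refine ⟨n, s, t, ?_, t.2, ?_⟩
  · have := u.isUnit
    rw [← hst, IsLocalization.AtPrime.isUnit_mk'_iff (Localization.AtPrime 𝔭) 𝔭] at this
    exact this
  · apply hinj
    have h1 : algebraMap ℤ (Localization.AtPrime 𝔭) (q : ℤ) = (q : Localization.AtPrime 𝔭) := by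
      simp
    rw [map_mul, hu, ← hst, map_mul, map_pow, h1, map_natCast]
    have h2 := IsLocalization.mk'_spec (Localization.AtPrime 𝔭) s t
    rw [← h2]
    ring

/-- Galois number field `K`, prime `P ∣ q`: an element fixed by the inertia group of `P` is
`q ^ n` times a `P`-unit. -/
theorem k0_exists_zpow_of_fixed (K : Type*) [Field K] [NumberField K] [IsGalois ℚ K]
    (q : ℕ) (hq : q.Prime) (P : Ideal (𝓞 K)) [P.IsPrime] (hqP : (q : 𝓞 K) ∈ P)
    (y : K) (hy0 : y ≠ 0) (hy : ∀ γ : Gal(K/ℚ), (∀ x : 𝓞 K, γ • x - x ∈ P) → γ y = y) :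
    ∃ (n : ℤ) (c d : 𝓞 K), c ∉ P ∧ d ∉ P ∧ y * (d : K) = (q : K) ^ n * (c : K) := by
  have hpp : Prime (q : ℤ) := Nat.prime_iff_prime_int.mp hq
  have : (Ideal.span {(q : ℤ)}).IsPrime := (Ideal.span_singleton_prime hpp.ne_zero).mpr hpp
  have : (Ideal.span {(q : ℤ)}).IsMaximal :=
    PrincipalIdealRing.isMaximal_of_irreducible hpp.irreducible
  have hlo : P.LiesOver (Ideal.span {(q : ℤ)}) :=
    (Ideal.liesOver_span_iff Ideal.IsPrime.ne_top' hpp).mpr (by simpa using hqP)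
  have hp0 : Ideal.span {(q : ℤ)} ≠ ⊥ := by
    simpa using hpp.ne_zero
  have hPmax : P.IsMaximal := Ideal.IsMaximal.of_liesOver_isMaximal P (Ideal.span {(q : ℤ)})
  let E : IntermediateField ℚ K := FixedPoints.intermediateField (inertia Gal(K/ℚ) P)
  let 𝓟E : Ideal (𝓞 E) := P.under (𝓞 E)
  have : P.LiesOver 𝓟E := ⟨rfl⟩
  have hloE : 𝓟E.LiesOver (Ideal.span {(q : ℤ)}) := Ideal.LiesOver.tower_bot P 𝓟E _
  have : 𝓟E.IsMaximal := Ideal.IsMaximal.of_liesOver_isMaximal 𝓟E (Ideal.span {(q : ℤ)})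
  have he := k0_ramificationIdx_eq_one ℤ ℚ K P E (𝓞 E) 𝓟E hp0
  have h𝓟0 : 𝓟E ≠ ⊥ := Ideal.ne_bot_of_liesOver_of_ne_bot hp0 𝓟E
  have hyE : y ∈ E := by
    intro γ
    exact hy γ.1 γ.2
  obtain ⟨a, b, hb, hab⟩ := IsFractionRing.div_surjective (A := 𝓞 E) (⟨y, hyE⟩ : E)
  have hb0 : b ≠ 0 := nonZeroDivisors.ne_zero hb
  have ha0 : a ≠ 0 := by
    rintro rfl
    rw [map_zero, zero_div] at hab
    exact hy0 (congrArg Subtype.val hab).symm
  obtain ⟨n, s, t, hs, ht, h1⟩ :=
    k0_exists_pow_of_ramificationIdx_eq_one 𝓟E h𝓟0 q hloE.over.symm he a ha0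
  obtain ⟨m, s', t', hs', ht', h2⟩ :=
    k0_exists_pow_of_ramificationIdx_eq_one 𝓟E h𝓟0 q hloE.over.symm he b hb0
  refine ⟨(n : ℤ) - m, algebraMap (𝓞 E) (𝓞 K) (s * t'), algebraMap (𝓞 E) (𝓞 K) (s' * t),
    ?_, ?_, ?_⟩
  · intro h
    exact ((Ideal.IsPrime.mem_or_mem inferInstance (show s * t' ∈ 𝓟E from h)).elim hs ht')
  · intro h
    exact ((Ideal.IsPrime.mem_or_mem inferInstance (show s' * t ∈ 𝓟E from h)).elim hs' ht)
  · have hq0 : (q : K) ≠ 0 := Nat.cast_ne_zero.mpr hq.ne_zero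
    have hbK : (((b : E) : K)) ≠ 0 := by
      intro h
      apply hb0
      apply NumberField.RingOfIntegers.ext
      exact Subtype.ext h
    have e1 : (((a : E) : K)) * (((t : E) : K)) = (((s : E) : K)) * (q : K) ^ n := by
      have := congrArg (fun z : 𝓞 E => (((z : E) : K))) h1
      simpa using this
    have e2 : (((b : E) : K)) * (((t' : E) : K)) = (((s' : E) : K)) * (q : K) ^ m := by
      have := congrArg (fun z : 𝓞 E => (((z : E) : K))) h2
      simpa using this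
    have e3 : y = (((a : E) : K)) / (((b : E) : K)) := by
      have := congrArg (fun z : E => (z : K)) hab
      simpa using this.symm
    have e4 : ((algebraMap (𝓞 E) (𝓞 K) (s * t') : 𝓞 K) : K) = (((s : E) : K)) * (((t' : E) : K)) := by
      rw [map_mul]
      rfl
    have e5 : ((algebraMap (𝓞 E) (𝓞 K) (s' * t) : 𝓞 K) : K) = (((s' : E) : K)) * (((t : E) : K)) := by
      rw [map_mul]
      rfl
    rw [e4, e5, e3, zpow_sub₀ hq0, zpow_natCast, zpow_natCast]
    field_simp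
    linear_combination (((s' : E) : K)) * (q : K) ^ m * e1 - (((s : E) : K)) * (q : K) ^ n * e2

open Fermat.Agent.S13.Minkowski Fermat.Agent.S54 Fermat.Agent.S37 in
attribute [local instance] isAlgClosure_Qbar isAlgebraic_int_Qbar isFractionRing_Zbar in
/-- **K0VAL.** The value group of the inertia field `ℚ̄^I` at `A ∣ q` is generated by `v(q)`. -/
theorem k0_exists_zpow_mul_unit (A : ValuationSubring (AlgebraicClosure ℚ)) {q : ℕ}
    (hq : q.Prime) (hA : A.LiesOverPrime q) (x : AlgebraicClosure ℚ) (hx0 : x ≠ 0)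
    (hx : ∀ τ ∈ A.inertiaSubgroupIn ℚ, τ x = x) :
    ∃ n : ℤ, x * (q : AlgebraicClosure ℚ) ^ (-n) ∈ A ∧
      (x * (q : AlgebraicClosure ℚ) ^ (-n))⁻¹ ∈ A := by
  let K : IntermediateField ℚ (AlgebraicClosure ℚ) :=
    IntermediateField.normalClosure ℚ (IntermediateField.adjoin ℚ {x}) (AlgebraicClosure ℚ)
  have hxint : IsIntegral ℚ x := Algebra.IsIntegral.isIntegral x
  have : FiniteDimensional ℚ (IntermediateField.adjoin ℚ {x}) :=
    IntermediateField.adjoin.finiteDimensional hxint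
  have : FiniteDimensional ℚ K := inferInstance
  have : Normal ℚ (AlgebraicClosure ℚ) := IsAlgClosure.normal ℚ (AlgebraicClosure ℚ)
  have : Normal ℚ K := normalClosure.normal ℚ _ _
  have : IsGalois ℚ K := ⟨⟩
  have : NumberField K := ⟨⟩
  have hxK : x ∈ K :=
    (IntermediateField.le_normalClosure (IntermediateField.adjoin ℚ {x}))
      (IntermediateField.mem_adjoin_simple_self ℚ x)
  let H : Subgroup (AlgebraicClosure ℚ ≃ₐ[ℚ] AlgebraicClosure ℚ) := K.fixingSubgroup
  have hcl : IsClosed (H : Set (AlgebraicClosure ℚ ≃ₐ[ℚ] AlgebraicClosure ℚ)) :=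
    IntermediateField.fixingSubgroup_isClosed K
  have hN : H.Normal := (InfiniteGalois.normal_iff_isGalois K).mpr inferInstance
  have hfix : IntermediateField.fixedField H = K := InfiniteGalois.fixedField_fixingSubgroup K
  -- topology on `ℤ̄`
  let _ : TopologicalSpace (integralClosure ℤ (AlgebraicClosure ℚ)) := ⊥
  have : DiscreteTopology (integralClosure ℤ (AlgebraicClosure ℚ)) := ⟨rfl⟩
  have : ContinuousSMul (AlgebraicClosure ℚ ≃ₐ[ℚ] AlgebraicClosure ℚ)
      (integralClosure ℤ (AlgebraicClosure ℚ)) := by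
    rw [continuousSMul_iff_stabilizer_isOpen]
    intro x
    have := stabilizer_isOpen_of_isIntegral (K := ℚ) (L := AlgebraicClosure ℚ)
      (x : AlgebraicClosure ℚ)
    convert this using 1
    ext g
    simp only [SetLike.mem_coe, MulAction.mem_stabilizer_iff]
    constructor
    · intro h; exact congrArg Subtype.val h
    · intro h; exact Subtype.ext h
  let Q : Ideal (integralClosure ℤ (AlgebraicClosure ℚ)) := frCentre A
  have hqQ : (q : integralClosure ℤ (AlgebraicClosure ℚ)) ∈ Q := fr_natCast_mem hA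
  let ι : 𝓞 K →+* integralClosure ℤ (AlgebraicClosure ℚ) :=
    { toFun := fun y => ⟨((y : K) : AlgebraicClosure ℚ), by
        have h := y.2
        exact h.map (IsScalarTower.toAlgHom ℤ K (AlgebraicClosure ℚ))⟩
      map_one' := rfl
      map_mul' := fun _ _ => rfl
      map_zero' := rfl
      map_add' := fun _ _ => rfl }
  let P : Ideal (𝓞 K) := Q.comap ι
  have hPprime : P.IsPrime := Ideal.comap_isPrime ι Q
  have hqP : (q : 𝓞 K) ∈ P := by
    change ι (q : 𝓞 K) ∈ Q
    rw [map_natCast]; exact hqQ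
  have hfixed : ∀ γ : Gal(K/ℚ), (∀ z : 𝓞 K, γ • z - z ∈ P) → γ (⟨x, hxK⟩ : K) = ⟨x, hxK⟩ := by
    intro γ hγ
    obtain ⟨γ', hγ'⟩ := AlgEquiv.restrictNormalHom_surjective (AlgebraicClosure ℚ) γ
    obtain ⟨h, hh, hσ⟩ := exists_mul_mem_inertia H hcl Q γ' (by
      intro x hx
      have hxK : (x : AlgebraicClosure ℚ) ∈ K := by
        rw [← hfix, IntermediateField.mem_fixedField_iff]
        intro g hg
        exact congrArg Subtype.val (hx g hg)
      have hint : IsIntegral ℤ (⟨x, hxK⟩ : K) := by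
        have h1 : IsIntegral ℤ (algebraMap K (AlgebraicClosure ℚ) ⟨x, hxK⟩) := x.2
        exact (isIntegral_algebraMap_iff (algebraMap K (AlgebraicClosure ℚ)).injective).mp h1
      let xK : 𝓞 K := ⟨⟨x, hxK⟩, hint⟩
      have h2 : ι (γ • xK - xK) ∈ Q := hγ xK
      have h3 : ι (γ • xK - xK) = γ' • x - x := by
        apply Subtype.ext
        change ((γ (⟨x, hxK⟩ : K) : K) : AlgebraicClosure ℚ) - x = γ' x - x
        rw [← hγ']
        congr 1
        exact AlgEquiv.restrictNormal_commutes γ' K ⟨x, hxK⟩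
      rw [h3] at h2
      exact h2)
    have hin := mem_inertiaSubgroupIn_loc q hq Q hqQ (h * γ') hσ
    rw [← fr_eq_loc hq hA] at hin
    have h1 := hx _ hin
    have h2 : h (γ' x) = x := h1
    have h3 : γ' x ∈ K := by
      have h5 : ((γ'.restrictNormal K ⟨x, hxK⟩ : K) : AlgebraicClosure ℚ) = γ' x :=
        AlgEquiv.restrictNormal_commutes γ' K ⟨x, hxK⟩
      rw [← h5]
      exact (γ'.restrictNormal K ⟨x, hxK⟩).2
    have h4 : h (γ' x) = γ' x := (IntermediateField.mem_fixingSubgroup_iff K h).mp hh _ h3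
    rw [← hγ']
    apply Subtype.ext
    have h5 := AlgEquiv.restrictNormal_commutes γ' K ⟨x, hxK⟩
    exact h5.trans (h4.symm.trans h2)
  obtain ⟨n, c, d, hc, hd, hcd⟩ := k0_exists_zpow_of_fixed K q hq P hqP ⟨x, hxK⟩
    (fun h => hx0 (congrArg Subtype.val h)) hfixed
  have hunit : ∀ c : 𝓞 K, c ∉ P → ((c : K) : AlgebraicClosure ℚ) ≠ 0 ∧
      ((c : K) : AlgebraicClosure ℚ) ∈ A ∧ (((c : K) : AlgebraicClosure ℚ))⁻¹ ∈ A := by
    intro c hc
    have h1 : ι c ∉ frCentre A := hc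
    rw [mem_frCentre, ValuationSubring.mem_nonunits_iff_or, not_or, not_not] at h1
    exact ⟨h1.1, fr_coe_mem A (ι c), h1.2⟩
  obtain ⟨hc0, hcA, hcA'⟩ := hunit c hc
  obtain ⟨hd0, hdA, hdA'⟩ := hunit d hd
  have hq0 : (q : AlgebraicClosure ℚ) ≠ 0 := Nat.cast_ne_zero.mpr hq.ne_zero
  have hcd' : x * ((d : K) : AlgebraicClosure ℚ) =
      (q : AlgebraicClosure ℚ) ^ n * ((c : K) : AlgebraicClosure ℚ) := by
    have := congrArg (algebraMap K (AlgebraicClosure ℚ)) hcd
    rw [map_mul, map_mul, map_zpow₀, map_natCast] at this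
    exact this
  have hval : x * (q : AlgebraicClosure ℚ) ^ (-n) =
      ((c : K) : AlgebraicClosure ℚ) * (((d : K) : AlgebraicClosure ℚ))⁻¹ := by
    rw [zpow_neg]
    field_simp
    rw [hcd']
  refine ⟨n, ?_, ?_⟩
  · rw [hval]; exact mul_mem hcA hdA'
  · rw [hval, mul_inv, inv_inv]; exact mul_mem hcA' hdA

end Fermat.Agent.S36
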