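import Fermat.Agent.S36.Defs16
import Fermat.Agent.GR.TowerAsm

/-!
# S36, piece KEY: `GC` ⟹ inertia invariant new classes of the tower are killed by a bounded integer
-/

set_option autoImplicit false
set_option linter.unusedSectionVars false

namespace Fermat.Agent.S36

open ModularCurve AlgebraicCurve HahnSeries Fermat.Agent.S24 Fermat.Agent.S18 Fermat.Agent.GR
open Fermat.Agent.S35

theorem key_exists_prim (q : ℕ) [NeZero q] : ∃ z : Kbˣ, IsPrimitiveRoot z q := by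
  have hq : ((q : ℕ) : Kb) ≠ 0 := Nat.cast_ne_zero.mpr (NeZero.ne q)
  have : NeZero ((q : ℕ) : Kb) := ⟨hq⟩
  obtain ⟨z, hz⟩ := HasEnoughRootsOfUnity.exists_primitiveRoot Kb q
  exact ⟨hz.isUnit (NeZero.ne q) |>.unit, by
    rw [← IsPrimitiveRoot.coe_units_iff]; exact hz⟩

theorem key_cls_inv {N m : ℕ} {u : FN N} (hu : u ≠ 0) : cls m u⁻¹ = - cls m u := by
  have h := cls_mul (m := m) hu (inv_ne_zero hu)
  rw [mul_inv_cancel₀ hu, cls_one] at h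
  exact (neg_eq_of_add_eq_zero_right h.symm).symm

theorem key_exists_of_cls_eq {N m : ℕ} {a b : FN N} (ha : a ≠ 0) (hb : b ≠ 0)
    (h : cls m a = cls m b) : ∃ z : FN N, a = b * z ^ m := by
  have h1 : cls m (a * b⁻¹) = 0 := by
    rw [cls_mul ha (inv_ne_zero hb), key_cls_inv hb, h, add_neg_cancel]
  obtain ⟨z, hz⟩ := (cls_eq_zero_iff (mul_ne_zero ha (inv_ne_zero hb))).mp h1
  exact ⟨z, by rw [← hz, mul_comm a, ← mul_assoc, mul_inv_cancel₀ hb, one_mul]⟩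

variable {p q M : ℕ} [NeZero q] [NeZero (q * M)] [NeZero (q * (q * M))]
  {w : FN (q * (q * M)) ≃ₐ[Kb] FN (q * (q * M))} {DN : AnData p (q * (q * M))}
  {DM : AnData p (q * M)}

theorem key_u_zero {N : ℕ} [NeZero N] (D : AnData p N) (n : ℕ) :
    ∃ y : FN N, D.u n 0 = y ^ (p ^ n) := by
  obtain ⟨w0, hw0⟩ := D.u_add n 0 0
  rw [add_zero] at hw0
  have h0 := D.u_ne n 0
  have h1 : D.u n 0 * w0 ^ (p ^ n) = 1 := by
    apply mul_left_cancel₀ h0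
    rw [mul_one, ← mul_assoc]
    exact hw0.symm
  refine ⟨w0⁻¹, ?_⟩
  rw [inv_pow]
  exact eq_inv_of_mul_eq_one_left h1

/-- the functions whose classes are "new". -/
def IsNewFn (q M m : ℕ) [NeZero q] (w : FN (q * (q * M)) ≃ₐ[Kb] FN (q * (q * M))) (ζ : Kbˣ)
    (u : FN (q * (q * M))) : Prop :=
  u ≠ 0 ∧ DvdOrd (q * (q * M)) m u ∧
    (∃ x : FN (q * M), UU ζ q (u : LaurentSeries Kb) = (x : LaurentSeries Kb) ^ m) ∧
    (∃ x : FN (q * M),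
      UU ζ q ((w u : FN (q * (q * M))) : LaurentSeries Kb) = (x : LaurentSeries Kb) ^ m)

theorem IsNewFn.one {m : ℕ} {ζ : Kbˣ} : IsNewFn q M m w ζ 1 := by
  refine ⟨one_ne_zero, DvdOrd.one, ⟨1, ?_⟩, ⟨1, ?_⟩⟩
  · show UU ζ q (1 : LaurentSeries Kb) = (1 : LaurentSeries Kb) ^ m
    rw [UU_one, one_pow]
  · rw [map_one]
    show UU ζ q (1 : LaurentSeries Kb) = (1 : LaurentSeries Kb) ^ m
    rw [UU_one, one_pow]

theorem IsNewFn.mul {m : ℕ} {ζ : Kbˣ} (hζ : IsPrimitiveRoot ζ q) {u v : FN (q * (q * M))}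
    (hu : IsNewFn q M m w ζ u) (hv : IsNewFn q M m w ζ v) : IsNewFn q M m w ζ (u * v) := by
  obtain ⟨hu0, hu1, ⟨x, hx⟩, ⟨x', hx'⟩⟩ := hu
  obtain ⟨hv0, hv1, ⟨y, hy⟩, ⟨y', hy'⟩⟩ := hv
  refine ⟨mul_ne_zero hu0 hv0, hu1.mul hv1, ⟨x * y, ?_⟩, ⟨x' * y', ?_⟩⟩
  · rw [MulMemClass.coe_mul, UU_mul hζ, hx, hy, MulMemClass.coe_mul, mul_pow]
  · rw [map_mul, MulMemClass.coe_mul, UU_mul hζ, hx', hy', MulMemClass.coe_mul, mul_pow]

theorem IsNewFn.inv {m : ℕ} {ζ : Kbˣ} (hζ : IsPrimitiveRoot ζ q) {u : FN (q * (q * M))}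
    (hu : IsNewFn q M m w ζ u) : IsNewFn q M m w ζ u⁻¹ := by
  obtain ⟨hu0, hu1, ⟨x, hx⟩, ⟨x', hx'⟩⟩ := hu
  refine ⟨inv_ne_zero hu0, hu1.inv, ⟨x⁻¹, ?_⟩, ⟨x'⁻¹, ?_⟩⟩
  · rw [IntermediateField.coe_inv, UU_inv hζ, hx, IntermediateField.coe_inv, inv_pow]
  · rw [map_inv₀, IntermediateField.coe_inv, UU_inv hζ, hx', IntermediateField.coe_inv, inv_pow]

/-- the norm of a Galois translate. -/
theorem key_norm_pow {ζ ζ0 : Kbˣ} (hζ : IsPrimitiveRoot ζ q) (hζ0 : IsPrimitiveRoot ζ0 q) (n : ℕ)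
    (g' : GQ) (u : FN (q * (q * M))) (x : FN (q * M))
    (h : UU ζ0 q (u : LaurentSeries Kb) = ((DM.u n 0 * x ^ (p ^ n) : FN (q * M)) : LaurentSeries Kb)) :
    ∃ y : FN (q * M), UU ζ q ((galF (q * (q * M)) g' u : FN (q * (q * M))) : LaurentSeries Kb) =
      (y : LaurentSeries Kb) ^ (p ^ n) := by
  obtain ⟨y0, hy0⟩ := key_u_zero DM n
  refine ⟨galF (q * M) g' (y0 * x), ?_⟩
  rw [coe_galF, ← coeffMap_gal_UU hζ, UU_eq_of_isPrimitiveRoot hζ hζ0, h, hy0, ← mul_pow,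
    ← coe_galF, map_pow]
  rfl

theorem isNewFn_gen (D3 : AnData3 p q M w DN DM) (hw : IsWq2 q M w) {ζ : Kbˣ}
    (hζ : IsPrimitiveRoot ζ q) (n : ℕ) (g' : GQ) (h : DN.H) (h1 : D3.trH h = 0)
    (h2 : D3.trH' h = 0) :
    IsNewFn q M (p ^ n) w ζ (galF (q * (q * M)) g' (DN.u n h)) := by
  obtain ⟨ζ1, x, hζ1, hx⟩ := D3.u_tr n h
  obtain ⟨ζ2, x', hζ2, hx'⟩ := D3.u_tr' n h
  rw [h1] at hx
  rw [h2] at hx'
  refine ⟨galF_u_ne DN n g' h, (dvdOrd_u DN n h).galF g', key_norm_pow hζ hζ1 n g' _ x hx, ?_⟩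
  rw [hw.gal]
  exact key_norm_pow hζ hζ2 n g' _ x' hx'

/-- the subgroup of the new classes. -/
noncomputable def NewQ (D3 : AnData3 p q M w DN DM) (n : ℕ) :
    AddSubgroup (KQ (q * (q * M)) (p ^ n)) :=
  AddSubgroup.closure {y | ∃ (g' : GQ) (h : DN.H), D3.trH h = 0 ∧ D3.trH' h = 0 ∧ y = gen DN n g' h}

theorem exists_isNewFn (D3 : AnData3 p q M w DN DM) (hw : IsWq2 q M w) {ζ : Kbˣ}
    (hζ : IsPrimitiveRoot ζ q) (n : ℕ) {y : KQ (q * (q * M)) (p ^ n)} (hy : y ∈ NewQ D3 n) :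
    ∃ u : FN (q * (q * M)), IsNewFn q M (p ^ n) w ζ u ∧ y = cls (p ^ n) u := by
  induction hy using AddSubgroup.closure_induction with
  | mem y hy =>
    obtain ⟨g', h, h1, h2, rfl⟩ := hy
    exact ⟨_, isNewFn_gen D3 hw hζ n g' h h1 h2, rfl⟩
  | zero => exact ⟨1, IsNewFn.one, cls_one.symm⟩
  | add a b _ _ ha hb =>
    obtain ⟨u, hu, rfl⟩ := ha
    obtain ⟨v, hv, rfl⟩ := hb
    exact ⟨u * v, hu.mul hζ hv, (cls_mul hu.1 hv.1).symm⟩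
  | neg a _ ha =>
    obtain ⟨u, hu, rfl⟩ := ha
    exact ⟨u⁻¹, hu.inv hζ, (key_cls_inv hu.1).symm⟩

/-- **KEY**, in `F^× / F^{× p^n}`. -/
theorem key_cls [Fact p.Prime] (D3 : AnData3 p q M w DN DM) (hq : q.Prime) (hqp : q ≠ p)
    (hw : IsWq2 q M w) (hGC : GC q M w) :
    ∃ d : ℕ, 0 < d ∧ ∀ A : ValuationSubring Kb, A.LiesOverPrime q → ∀ (n : ℕ),
      ∀ y ∈ NewQ D3 n, (∀ τ ∈ A.inertiaSubgroupIn ℚ, actQ (p ^ n) τ y = y) → d • y = 0 := by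
  obtain ⟨d, hd, H⟩ := hGC
  obtain ⟨ζ, hζ⟩ := key_exists_prim q
  refine ⟨d, hd, fun A hA n y hy hI => ?_⟩
  obtain ⟨u, ⟨hu0, hu1, hu2, hu3⟩, rfl⟩ := exists_isNewFn D3 hw hζ n hy
  obtain ⟨z, hz⟩ := H A hA (p ^ n) (pow_pos (Fact.out : p.Prime).pos n) (not_dvd_pow hq hqp n) ζ hζ
    u hu0 hu1 hu2 hu3 (fun τ hτ => by
      have h1 := hI τ hτ
      rw [actQ_cls] at h1
      refine key_exists_of_cls_eq ?_ hu0 h1
      rwa [Ne, map_eq_zero_iff _ (galF (q * (q * M)) τ).injective])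
  rw [← cls_pow hu0, hz, cls_pow_self]

end Fermat.Agent.S36
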