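import Mathlib

/-!
# S36, abstract local algebra: two-generated maximal ideal => UFD; UFD + valuations => local factorisation
-/

set_option autoImplicit false

namespace Fermat.Agent.S36

open Ideal

/-- Kaplansky: a noetherian local domain `A` with a prime element `a` such that `A/(a)` is a PIR is a UFD. -/
theorem ufd_of_prime_of_pir {A : Type*} [CommRing A] [IsDomain A] [IsNoetherianRing A] [IsLocalRing A]
    (a : A) (ha : Prime a) (hpir : IsPrincipalIdealRing (A ⧸ Ideal.span {a})) :
    UniqueFactorizationMonoid A := by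
  rw [UniqueFactorizationMonoid.iff_exists_prime_mem_of_isPrime]
  intro I hI0 hIp
  by_cases haI : a ∈ I
  · exact ⟨a, haI, ha⟩
  obtain ⟨g, hg⟩ := (hpir.principal (I.map (Ideal.Quotient.mk (Ideal.span {a})))).principal
  have hsurj : Function.Surjective (Ideal.Quotient.mk (Ideal.span {a})) := Ideal.Quotient.mk_surjective
  have hgmem : g ∈ I.map (Ideal.Quotient.mk (Ideal.span {a})) := by
    rw [hg]; exact Submodule.mem_span_singleton_self g
  obtain ⟨f, hfI, hfg⟩ := (Ideal.mem_map_iff_of_surjective _ hsurj).mp hgmem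
  have hanu : a ∈ IsLocalRing.maximalIdeal A := by
    rw [IsLocalRing.mem_maximalIdeal, mem_nonunits_iff]; exact ha.not_isUnit
  have hle : I ≤ Ideal.span {f} ⊔ (Ideal.span {a}) • I := by
    intro x hx
    have h1 : Ideal.Quotient.mk (Ideal.span {a}) x ∈ I.map (Ideal.Quotient.mk (Ideal.span {a})) :=
      Ideal.mem_map_of_mem _ hx
    rw [hg] at h1
    obtain ⟨r, hr⟩ := Submodule.mem_span_singleton.mp h1
    obtain ⟨r', rfl⟩ := hsurj r
    have h2 : Ideal.Quotient.mk (Ideal.span {a}) (x - r' * f) = 0 := by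
      rw [map_sub, map_mul, hfg, ← hr]; simp
    rw [Ideal.Quotient.eq_zero_iff_mem, Ideal.mem_span_singleton] at h2
    obtain ⟨y, hy⟩ := h2
    have hyI : y ∈ I := by
      have : a * y ∈ I := by rw [← hy]; exact I.sub_mem hx (I.mul_mem_left _ hfI)
      exact (hIp.mem_or_mem this).resolve_left haI
    have hx' : x = r' * f + a * y := by rw [← hy]; ring
    rw [hx']
    refine Submodule.add_mem_sup (Ideal.mem_span_singleton.mpr (Dvd.intro_left _ rfl)) ?_
    exact Submodule.smul_mem_smul (Ideal.mem_span_singleton_self a) hyI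
  have hjac : Ideal.span {a} ≤ Ideal.jacobson (⊥ : Ideal A) := by
    rw [IsLocalRing.jacobson_eq_maximalIdeal ⊥ bot_ne_top, Ideal.span_singleton_le_iff_mem]
    exact hanu
  have hle2 : I ≤ Ideal.span {f} :=
    Submodule.le_of_le_smul_of_le_jacobson_bot (IsNoetherian.noetherian I) hjac hle
  have hIf : I = Ideal.span {f} :=
    le_antisymm hle2 ((Ideal.span_singleton_le_iff_mem _).mpr hfI)
  have hf0 : f ≠ 0 := by
    rintro rfl
    apply hI0
    rw [hIf]; simp
  exact ⟨f, hfI, (Ideal.span_singleton_prime hf0).mp (hIf ▸ hIp)⟩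

/-- a noetherian local domain whose maximal ideal is generated by a prime element `a` and one more element
is a UFD. -/
theorem ufd_of_maximalIdeal_eq_span_pair {A : Type*} [CommRing A] [IsDomain A] [IsNoetherianRing A]
    [IsLocalRing A] (a b : A) (ha : Prime a) (hm : IsLocalRing.maximalIdeal A = Ideal.span {a, b}) :
    UniqueFactorizationMonoid A := by
  have hp : (Ideal.span {a}).IsPrime := (Ideal.span_singleton_prime ha.ne_zero).mpr ha
  have : IsDomain (A ⧸ Ideal.span {a}) := Ideal.Quotient.isDomain _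
  have : IsLocalRing (A ⧸ Ideal.span {a}) :=
    IsLocalRing.of_surjective' (Ideal.Quotient.mk _) Ideal.Quotient.mk_surjective
  refine ufd_of_prime_of_pir a ha ?_
  have h := (tfae_of_isNoetherianRing_of_isLocalRing_of_isDomain (A ⧸ Ideal.span {a})).out 0 4
  rw [h]
  refine ⟨Ideal.Quotient.mk _ b, ?_⟩
  have h1 : IsLocalRing.maximalIdeal (A ⧸ Ideal.span {a}) =
      (IsLocalRing.maximalIdeal A).map (Ideal.Quotient.mk (Ideal.span {a})) := by
    apply le_antisymm
    · intro x hx
      obtain ⟨x', rfl⟩ := Ideal.Quotient.mk_surjective x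
      apply Ideal.mem_map_of_mem
      rw [IsLocalRing.mem_maximalIdeal, mem_nonunits_iff] at hx ⊢
      exact fun h => hx (h.map _)
    · rw [Ideal.map_le_iff_le_comap]
      intro x hx
      rw [Ideal.mem_comap, IsLocalRing.mem_maximalIdeal, mem_nonunits_iff]
      intro hu
      rw [IsLocalRing.mem_maximalIdeal, mem_nonunits_iff] at hx
      apply hx
      obtain ⟨y, hy⟩ := hu.exists_right_inv
      obtain ⟨y', rfl⟩ := Ideal.Quotient.mk_surjective y
      have h2 : Ideal.Quotient.mk (Ideal.span {a}) (x * y' - 1) = 0 := by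
        rw [map_sub, map_mul, hy, map_one, sub_self]
      rw [Ideal.Quotient.eq_zero_iff_mem, Ideal.mem_span_singleton] at h2
      obtain ⟨z, hz⟩ := h2
      have h3 : IsUnit (x * y') := by
        have : x * y' = 1 + a * z := by rw [← hz]; ring
        rw [this]
        by_contra hnu
        have h4 : (1 + a * z) ∈ IsLocalRing.maximalIdeal A := hnu
        have h5 : a * z ∈ IsLocalRing.maximalIdeal A :=
          Ideal.mul_mem_right _ _ (by
            rw [IsLocalRing.mem_maximalIdeal, mem_nonunits_iff]; exact ha.not_isUnit)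
        have h6 : (1 : A) ∈ IsLocalRing.maximalIdeal A := by
          have := Ideal.sub_mem _ h4 h5
          simpa using this
        exact (IsLocalRing.maximalIdeal.isMaximal A).ne_top ((Ideal.eq_top_iff_one _).mpr h6)
      exact isUnit_of_mul_isUnit_left h3
  rw [h1, hm, Ideal.map_span]
  apply le_antisymm
  · rw [Ideal.span_le]
    rintro _ ⟨x, hx, rfl⟩
    rcases hx with rfl | hx
    · have : Ideal.Quotient.mk (Ideal.span {x}) x = 0 :=
        Ideal.Quotient.eq_zero_iff_mem.mpr (Ideal.mem_span_singleton_self x)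
      rw [this]; exact Submodule.zero_mem _
    · rw [Set.mem_singleton_iff] at hx
      subst hx
      exact Submodule.mem_span_singleton_self _
  · rw [Submodule.span_singleton_le_iff_mem]
    exact Ideal.subset_span ⟨b, by simp, rfl⟩

/-- in a UFD: if every exact prime power dividing `a` has exponent divisible by `m`, then `a` is a unit times an
`m`-th power. -/
theorem exists_unit_mul_pow_of_forall_prime {A : Type*} [CommRing A] [IsDomain A]
    [UniqueFactorizationMonoid A] (m : ℕ) (a : A) (ha : a ≠ 0)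
    (h : ∀ p : A, Prime p → ∀ (i : ℕ) (a' : A), a = p ^ i * a' → ¬ p ∣ a' → m ∣ i) :
    ∃ (ε : Aˣ) (c : A), a = ε * c ^ m := by
  revert ha h
  induction a using UniqueFactorizationMonoid.induction_on_coprime with
  | h0 => intro ha; exact absurd rfl ha
  | h1 hx =>
    intro _ _
    exact ⟨hx.unit, 1, by simp⟩
  | hpr i hp =>
    rename_i p
    intro _ h
    obtain ⟨j, rfl⟩ := h p hp i 1 (by simp) (fun h1 => hp.not_isUnit (isUnit_of_dvd_one h1))
    exact ⟨1, p ^ j, by rw [Units.val_one, one_mul, ← pow_mul, mul_comm]⟩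
  | hcp hxy ihx ihy =>
    rename_i x y
    intro hne h
    have hx0 : x ≠ 0 := left_ne_zero_of_mul hne
    have hy0 : y ≠ 0 := right_ne_zero_of_mul hne
    obtain ⟨ε₁, c₁, h1⟩ := ihx hx0 (by
      intro p hp i a' hxa hpa
      rcases Nat.eq_zero_or_pos i with rfl | hi
      · exact dvd_zero m
      refine h p hp i (a' * y) (by rw [hxa]; ring) ?_
      intro hd
      rcases hp.dvd_or_dvd hd with hd | hd
      · exact hpa hd
      · have hpx : p ∣ x := by rw [hxa]; exact Dvd.dvd.mul_right (dvd_pow_self p hi.ne') _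
        exact hp.not_isUnit (hxy hpx hd))
    obtain ⟨ε₂, c₂, h2⟩ := ihy hy0 (by
      intro p hp i a' hya hpa
      rcases Nat.eq_zero_or_pos i with rfl | hi
      · exact dvd_zero m
      refine h p hp i (a' * x) (by rw [hya]; ring) ?_
      intro hd
      rcases hp.dvd_or_dvd hd with hd | hd
      · exact hpa hd
      · have hpy : p ∣ y := by rw [hya]; exact Dvd.dvd.mul_right (dvd_pow_self p hi.ne') _
        exact hp.not_isUnit (hxy hd hpy))
    exact ⟨ε₁ * ε₂, c₁ * c₂, by rw [h1, h2, Units.val_mul, mul_pow]; ring⟩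

/-- **Local factorisation.**  `A` a UFD with fraction field `F₀`, `u ∈ F₀ˣ`.  Suppose that for every prime element `p`
of `A` there is an additive function `v` on `F₀ \ {0}` which vanishes on the elements of `A` prime to `p`, with
`v p` prime to `m` and `m ∣ v u`.  Then `u = ε w ^ m` with `ε ∈ Aˣ`. -/
theorem exists_local_factorisation {A F₀ : Type*} [CommRing A] [IsDomain A] [UniqueFactorizationMonoid A]
    [Field F₀] [Algebra A F₀] [IsFractionRing A F₀] (m : ℕ) (hm : 0 < m) (u : F₀) (hu : u ≠ 0)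
    (h : ∀ p : A, Prime p → ∃ v : F₀ → ℤ, (∀ x y, x ≠ 0 → y ≠ 0 → v (x * y) = v x + v y) ∧
      (∀ a : A, a ≠ 0 → ¬ p ∣ a → v (algebraMap A F₀ a) = 0) ∧
      IsCoprime (v (algebraMap A F₀ p)) (m : ℤ) ∧ (m : ℤ) ∣ v u) :
    ∃ (ε : Aˣ) (w : F₀), w ≠ 0 ∧ u = algebraMap A F₀ ε * w ^ m := by
  obtain ⟨a, b, hab, hu'⟩ := IsFractionRing.exists_reduced_fraction (A := A) u
  have hb0 : (b : A) ≠ 0 := nonZeroDivisors.ne_zero b.2
  have hinj : Function.Injective (algebraMap A F₀) := IsFractionRing.injective A F₀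
  have hbF : algebraMap A F₀ b ≠ 0 := fun h0 => hb0 (hinj (by rw [h0, map_zero]))
  have hub : u * algebraMap A F₀ b = algebraMap A F₀ a := by
    rw [← hu', IsLocalization.mk'_spec]
  have ha0 : a ≠ 0 := by
    rintro rfl
    rw [map_zero] at hub
    exact (mul_ne_zero hu hbF) hub
  have haF : algebraMap A F₀ a ≠ 0 := fun h0 => ha0 (hinj (by rw [h0, map_zero]))
  -- powers
  have hpow : ∀ (v : F₀ → ℤ), (∀ x y, x ≠ 0 → y ≠ 0 → v (x * y) = v x + v y) →
      ∀ (x : F₀), x ≠ 0 → ∀ i : ℕ, v (x ^ i) = i * v x := by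
    intro v hv x hx i
    have h1 : v 1 = 0 := by
      have := hv 1 1 one_ne_zero one_ne_zero
      rw [mul_one] at this
      linarith
    induction i with
    | zero => simp [h1]
    | succ n ih => rw [pow_succ, hv _ _ (pow_ne_zero n hx) hx, ih]; push_cast; ring
  have key : ∀ (c d : A), c ≠ 0 → d ≠ 0 → IsRelPrime c d →
      (∀ v : F₀ → ℤ, (∀ x y, x ≠ 0 → y ≠ 0 → v (x * y) = v x + v y) → (m : ℤ) ∣ v u →
        (m : ℤ) ∣ v (algebraMap A F₀ c) - v (algebraMap A F₀ d)) →
      ∀ p : A, Prime p → ∀ (i : ℕ) (a' : A), c = p ^ i * a' → ¬ p ∣ a' → m ∣ i := by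
    intro c d hc hd hcd hv p hp i a' hca hpa
    rcases Nat.eq_zero_or_pos i with rfl | hi
    · exact dvd_zero m
    obtain ⟨v, hmul, hv0, hcop, hmu⟩ := h p hp
    have hpc : p ∣ c := by rw [hca]; exact Dvd.dvd.mul_right (dvd_pow_self p hi.ne') _
    have hpd : ¬ p ∣ d := fun hd' => hp.not_isUnit (hcd hpc hd')
    have ha'0 : a' ≠ 0 := by rintro rfl; exact hpa (dvd_zero p)
    have hpF : algebraMap A F₀ p ≠ 0 := fun h0 => hp.ne_zero (hinj (by rw [h0, map_zero]))
    have ha'F : algebraMap A F₀ a' ≠ 0 := fun h0 => ha'0 (hinj (by rw [h0, map_zero]))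
    have h1 : v (algebraMap A F₀ c) = i * v (algebraMap A F₀ p) := by
      rw [hca, map_mul, map_pow, hmul _ _ (pow_ne_zero i hpF) ha'F, hpow v hmul _ hpF, hv0 a' ha'0 hpa,
        add_zero]
    have h2 := hv v hmul hmu
    rw [h1, hv0 d hd hpd, sub_zero] at h2
    have h3 : (m : ℤ) ∣ (i : ℤ) := (hcop.symm.dvd_of_dvd_mul_right h2)
    exact_mod_cast h3
  obtain ⟨ε₁, c₁, h1⟩ := exists_unit_mul_pow_of_forall_prime m a ha0
    (key a b ha0 hb0 hab (by
      intro v hmul hmu
      have : v (algebraMap A F₀ a) = v u + v (algebraMap A F₀ b) := by rw [← hub, hmul _ _ hu hbF]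
      rw [this]; simpa using hmu))
  obtain ⟨ε₂, c₂, h2⟩ := exists_unit_mul_pow_of_forall_prime m (b : A) hb0
    (key b a hb0 ha0 hab.symm (by
      intro v hmul hmu
      have : v (algebraMap A F₀ a) = v u + v (algebraMap A F₀ b) := by rw [← hub, hmul _ _ hu hbF]
      rw [this]
      have : v (algebraMap A F₀ b) - (v u + v (algebraMap A F₀ b)) = - v u := by ring
      rw [this]; exact (dvd_neg).mpr hmu))
  have hc1 : c₁ ≠ 0 := by
    rintro rfl
    rw [zero_pow hm.ne', mul_zero] at h1; exact ha0 h1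
  have hc2 : c₂ ≠ 0 := by
    rintro rfl
    rw [zero_pow hm.ne', mul_zero] at h2; exact hb0 h2
  have hc1F : algebraMap A F₀ c₁ ≠ 0 := fun h0 => hc1 (hinj (by rw [h0, map_zero]))
  have hc2F : algebraMap A F₀ c₂ ≠ 0 := fun h0 => hc2 (hinj (by rw [h0, map_zero]))
  refine ⟨ε₁ * ε₂⁻¹, algebraMap A F₀ c₁ / algebraMap A F₀ c₂, div_ne_zero hc1F hc2F, ?_⟩
  have he : algebraMap A F₀ (ε₂ : A) * algebraMap A F₀ ((ε₂⁻¹ : Aˣ) : A) = 1 := by
    rw [← map_mul, Units.mul_inv, map_one]
  have hu2 : u = algebraMap A F₀ a / algebraMap A F₀ b := by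
    rw [← hub]; field_simp
  rw [hu2, h1, h2, Units.val_mul, map_mul, map_mul, map_mul, map_pow, map_pow, div_pow]
  have he0 : algebraMap A F₀ (ε₂ : A) ≠ 0 := left_ne_zero_of_mul (by rw [he]; exact one_ne_zero)
  have he' : algebraMap A F₀ ((ε₂⁻¹ : Aˣ) : A) = (algebraMap A F₀ (ε₂ : A))⁻¹ :=
    eq_inv_of_mul_eq_one_right he
  rw [he']
  field_simp

end Fermat.Agent.S36
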