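import Fermat.Agent.S36.Cons10
import Fermat.Agent.S36.Key16
import Fermat.Agent.S36.AN17
import Fermat.Agent.S36.Flat10
import Fermat.Agent.S35.Trace
import Fermat.Agent.S33.C3

/-!
# S36: `GC` (+ Hecke equivariance of `trH`, `trH'`) `⟹` the hypothesis `hkey` of `consumer` `⟹` the conclusion of S36
-/

set_option autoImplicit false

namespace Fermat.Agent.S36

open ModularCurve AlgebraicCurve HahnSeries Fermat.Agent.S24 Fermat.Agent.S18 Fermat.Agent.GR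
open TensorProduct IsLocalRing

/-- the `𝒪'`-linear form of `key_cls` for an eigenvector of a newform. -/
theorem key_eigen2 {p q M : ℕ} [Fact p.Prime] [NeZero q] [NeZero (q * M)] [NeZero (q * (q * M))]
    (hq : q.Prime) (hqp : q ≠ p)
    {w : FN (q * (q * M)) ≃ₐ[Kb] FN (q * (q * M))} (hw : IsWq2 q M w) (hGC : GC q M w)
    {DN : AnData p (q * (q * M))} {DM : AnData p (q * M)} (D3 : AnData3 p q M w DN DM)
    (hT : ∀ {ℓ : ℕ} (hℓ : ℓ.Prime) (hℓN : ¬ ℓ ∣ q * (q * M)) (hℓM : ¬ ℓ ∣ q * M) (_ : ℓ ≠ p)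
      (h : DN.H), D3.trH (DN.actH (CuspForm.heckeAlgebra.T hℓ hℓN (Set.notMem_empty ℓ)) h) =
        DM.actH (CuspForm.heckeAlgebra.T hℓ hℓM (Set.notMem_empty ℓ)) (D3.trH h))
    (hT' : ∀ {ℓ : ℕ} (hℓ : ℓ.Prime) (hℓN : ¬ ℓ ∣ q * (q * M)) (hℓM : ¬ ℓ ∣ q * M) (_ : ℓ ≠ p)
      (h : DN.H), D3.trH' (DN.actH (CuspForm.heckeAlgebra.T hℓ hℓN (Set.notMem_empty ℓ)) h) =
        DM.actH (CuspForm.heckeAlgebra.T hℓ hℓM (Set.notMem_empty ℓ)) (D3.trH' h))
    {g : CuspForm (CongruenceSubgroup.Gamma0 (q * (q * M))) 2} (hg : g.IsNewform) (S : Finset ℕ)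
    (O' : Type) [CommRing O'] [IsDomain O'] [CharZero O']
    (chig : CuspForm.heckeAlgebra (q * (q * M)) 2 (↑S : Set ℕ) →+* ℂ)
    (hchig : ∀ (ℓ : ℕ) (hℓ : ℓ.Prime) (hℓN : ¬ ℓ ∣ q * (q * M)) (hℓS : ℓ ∉ (↑S : Set ℕ)),
      chig (CuspForm.heckeAlgebra.T hℓ hℓN hℓS) = ModularFormClass.qCoeff g ℓ)
    (iota : chig.range →+* O') (hpS : p ∈ S)
    (hNS : ∀ q' : ℕ, q'.Prime → q' ∣ q * (q * M) → q' ∈ S)
    (h : O' ⊗[ℤ] (towerOfAnData DN).H)
    (hheig : ∀ (ℓ : ℕ) (hℓ : ℓ.Prime) (hℓN : ¬ ℓ ∣ q * (q * M)) (hℓS : ℓ ∉ (↑S : Set ℕ)),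
      ((towerOfAnData DN).actH (CuspForm.heckeAlgebra.T hℓ hℓN (Set.notMem_empty ℓ))).baseChange O' h =
        (iota.comp chig.rangeRestrict) (CuspForm.heckeAlgebra.T hℓ hℓN hℓS) • h) :
    ∃ d : O', d ≠ 0 ∧ ∀ P : ValuationSubring Qb, P.LiesOverPrime q → ∀ (n : ℕ),
      ∀ y ∈ Submodule.span O' (Set.range fun g' : GQ =>
          (towerOfAnData DN).actM O' n g' ((towerOfAnData DN).ιM O' n h)),
        (∀ τ ∈ P.inertiaSubgroupIn ℚ, (towerOfAnData DN).actM O' n τ y = y) → d • y = 0 := by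
  have hMN : q * M ∣ q * (q * M) := Dvd.intro_left q rfl
  have hne : q * M ≠ q * (q * M) := by
    intro h0
    have hM0 : 0 < q * M := Nat.pos_of_ne_zero (NeZero.ne (q * M))
    have := hq.one_lt
    nlinarith
  have hpne : ∀ ℓ : ℕ, ℓ ∉ (↑S : Set ℕ) → ℓ ≠ p := fun ℓ hℓS h0 => hℓS (by simpa [h0] using hpS)
  have h1 : (D3.trH.toIntLinearMap).baseChange O' h = 0 :=
    Fermat.Agent.S35.new_eigenvector_eq_zero hg S chig hchig iota hNS (q * M) hMN hne DM.actH _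
      (fun ℓ hℓ hℓM hℓN hℓS => Fermat.Agent.S35.baseChange_eigen (N := q * (q * M)) (M := q * M)
        _ _ D3.trH (fun x => hT hℓ hℓN hℓM (hpne ℓ hℓS) x) _ h (hheig ℓ hℓ hℓN hℓS))
  have h2 : (D3.trH'.toIntLinearMap).baseChange O' h = 0 :=
    Fermat.Agent.S35.new_eigenvector_eq_zero hg S chig hchig iota hNS (q * M) hMN hne DM.actH _
      (fun ℓ hℓ hℓM hℓN hℓS => Fermat.Agent.S35.baseChange_eigen (N := q * (q * M)) (M := q * M)
        _ _ D3.trH' (fun x => hT' hℓ hℓN hℓM (hpne ℓ hℓS) x) _ h (hheig ℓ hℓ hℓN hℓS))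
  obtain ⟨d, hd, hkey⟩ := key_cls D3 hq hqp hw hGC
  have hflat : Module.Flat ℤ O' := inferInstance
  have hspan := Fermat.Agent.S35.mem_span_of_baseChange_eq_zero₂ (𝒪 := O') D3.trH.toIntLinearMap
    D3.trH'.toIntLinearMap h h1 h2
  refine ⟨(d : O'), Nat.cast_ne_zero.mpr hd.ne', fun P hP n y hy hinv => ?_⟩
  have hfin : Finite ((towerOfAnData DN).A n) := Fermat.Agent.S33.C3_AS_finite DN (Fact.out : p.Prime).pos n
  -- the subgroup of the new classes inside `(towerOfAnData DN).A n`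
  let B : AddSubgroup ((towerOfAnData DN).A n) := (NewQ D3 n).comap (AS DN n).subtype
  have hB : ∀ b ∈ B, (∀ τ ∈ (P.inertiaSubgroupIn ℚ : Set GQ),
      (AddMonoidHom.toIntLinearMap ((towerOfAnData DN).act n τ)) b = b) → d • b = 0 := by
    intro b hb hτ
    apply Subtype.ext
    exact hkey P hP n (Subtype.val (show AS DN n from b)) hb
      (fun τ hτ' => congrArg Subtype.val (hτ τ hτ'))
  -- `actM g' (ιM h)` lies in the span of the `1 ⊗ b`
  have hgen : ∀ g' : GQ, (towerOfAnData DN).actM O' n g' ((towerOfAnData DN).ιM O' n h) ∈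
      Submodule.span O' {z : O' ⊗[ℤ] (towerOfAnData DN).A n | ∃ b ∈ B, z = (1 : O') ⊗ₜ[ℤ] b} := by
    intro g'
    have aux : ∀ x ∈ Submodule.span O' {z : O' ⊗[ℤ] (towerOfAnData DN).H | ∃ h₀ : (towerOfAnData DN).H,
        D3.trH.toIntLinearMap h₀ = 0 ∧ D3.trH'.toIntLinearMap h₀ = 0 ∧ z = (1 : O') ⊗ₜ[ℤ] h₀},
        (towerOfAnData DN).actM O' n g' ((towerOfAnData DN).ιM O' n x) ∈
          Submodule.span O' {z : O' ⊗[ℤ] (towerOfAnData DN).A n | ∃ b ∈ B, z = (1 : O') ⊗ₜ[ℤ] b} := by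
      intro x hx
      induction hx using Submodule.span_induction with
      | mem x hx =>
        obtain ⟨h₀, e1, e2, rfl⟩ := hx
        refine Submodule.subset_span ⟨(towerOfAnData DN).act n g' ((towerOfAnData DN).ι n h₀), ?_, rfl⟩
        show actQ (p ^ n) g' (gen DN n 1 h₀) ∈ NewQ D3 n
        have e3 : actQ (p ^ n) g' (gen DN n 1 h₀) = gen DN n g' h₀ := by
          have := actQ_gen DN n g' 1 h₀
          rwa [mul_one] at this
        rw [e3]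
        exact AddSubgroup.subset_closure ⟨g', h₀, e1, e2, rfl⟩
      | zero => rw [map_zero, map_zero]; exact zero_mem _
      | add x y _ _ hx hy => rw [map_add, map_add]; exact add_mem hx hy
      | smul a x _ hx => rw [map_smul, map_smul]; exact Submodule.smul_mem _ _ hx
    exact aux h hspan
  have hy' : y ∈ Submodule.span O' {z : O' ⊗[ℤ] (towerOfAnData DN).A n | ∃ b ∈ B, z = (1 : O') ⊗ₜ[ℤ] b} := by
    refine (Submodule.span_le.mpr ?_) hy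
    rintro _ ⟨g', rfl⟩
    exact hgen g'
  exact smul_eq_zero_of_inv (𝒪 := O') (fun τ : GQ => AddMonoidHom.toIntLinearMap ((towerOfAnData DN).act n τ))
    (P.inertiaSubgroupIn ℚ : Set GQ) B d hB y hy' (fun τ hτ => hinv τ hτ)

/-- the geometric core at all levels. -/
def GCAll : Prop :=
  ∀ (q M : ℕ) [NeZero q] [NeZero (q * M)] [NeZero (q * (q * M))], q.Prime → ¬ q ∣ M →
    ∀ w : FN (q * (q * M)) ≃ₐ[Kb] FN (q * (q * M)), IsWq2 q M w → GC q M w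

/-- Hecke equivariance of the lattice maps of `AnData3`. -/
def EqvAll (p : ℕ) : Prop :=
  ∀ (q M : ℕ) [NeZero q] [NeZero (q * M)] [NeZero (q * (q * M))], q.Prime → ¬ q ∣ M →
    ∀ w : FN (q * (q * M)) ≃ₐ[Kb] FN (q * (q * M)), IsWq2 q M w →
    ∀ (DN : AnData p (q * (q * M))) (DM : AnData p (q * M)) (D3 : AnData3 p q M w DN DM)
      (ℓ : ℕ) (hℓ : ℓ.Prime) (hℓN : ¬ ℓ ∣ q * (q * M)) (hℓM : ¬ ℓ ∣ q * M) (_ : ℓ ≠ p) (h : DN.H),
      D3.trH (DN.actH (CuspForm.heckeAlgebra.T hℓ hℓN (Set.notMem_empty ℓ)) h) =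
        DM.actH (CuspForm.heckeAlgebra.T hℓ hℓM (Set.notMem_empty ℓ)) (D3.trH h) ∧
      D3.trH' (DN.actH (CuspForm.heckeAlgebra.T hℓ hℓN (Set.notMem_empty ℓ)) h) =
        DM.actH (CuspForm.heckeAlgebra.T hℓ hℓM (Set.notMem_empty ℓ)) (D3.trH' h)

open Polynomial in
/-- **TOP.**  `GC` and the Hecke equivariance give the conclusion of S36. -/
theorem top_of_GC (hGC : GCAll)
    {M : ℕ} [NeZero M] {g : CuspForm (CongruenceSubgroup.Gamma0 M) 2} (hg : g.IsNewform)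
    (lam : ℕ) [Fact lam.Prime] (hE : EqvAll lam)
    (S : Finset ℕ)
    (O' : Type) [CommRing O'] [IsDomain O'] [IsDiscreteValuationRing O']
    [IsAdicComplete (IsLocalRing.maximalIdeal O') O'] [Finite (IsLocalRing.ResidueField O')]
    [CharZero O'] (hlamO' : (lam : O') ∈ IsLocalRing.maximalIdeal O')
    (chig : CuspForm.heckeAlgebra M 2 (↑S : Set ℕ) →+* ℂ)
    (hchig : ∀ (ℓ : ℕ) (hℓ : ℓ.Prime) (hℓM : ¬ ℓ ∣ M) (hℓS : ℓ ∉ (↑S : Set ℕ)),
      chig (CuspForm.heckeAlgebra.T hℓ hℓM hℓS) = ModularFormClass.qCoeff g ℓ)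
    (iota : chig.range →+* O')
    (hlamS : lam ∈ S) (hMS : ∀ q : ℕ, q.Prime → q ∣ M → q ∈ S) :
    ∃ (O'' : Type) (_ : CommRing O'') (_ : IsDomain O'') (_ : IsDiscreteValuationRing O'')
      (_ : IsAdicComplete (IsLocalRing.maximalIdeal O'') O'') (_ : Finite (IsLocalRing.ResidueField O''))
      (_ : CharZero O'') (_ : Algebra O' O'') (_ : Module.Finite O' O'') (_ : IsLocalHom (algebraMap O' O'')),
      Function.Injective (algebraMap O' O'') ∧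
      ∃ ρ : GaloisRepAdic O'',
        (∀ (ℓ : ℕ) (hℓ : ℓ.Prime) (hℓM : ¬ ℓ ∣ M) (hℓS : ℓ ∉ (↑S : Set ℕ)),
          ∀ A : ValuationSubring (AlgebraicClosure ℚ), A.LiesOverPrime ℓ →
            ∀ σ : AlgebraicClosure ℚ ≃ₐ[ℚ] AlgebraicClosure ℚ, A.IsFrobeniusAt σ ℓ →
              LinearMap.charpoly (ρ.ρ σ) =
                X ^ 2 - Polynomial.C (algebraMap O' O'' ((iota.comp chig.rangeRestrict) (CuspForm.heckeAlgebra.T hℓ hℓM hℓS))) * X
                  + Polynomial.C ((ℓ : O''))) ∧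
        (∀ q : ℕ, q.Prime → q ≠ lam → M.factorization q = 2 → ¬ ρ.IsUnipotentOnInertiaAt q) := by
  obtain ⟨Dfam, -, hfam⟩ := exists_anFamily3 lam
  refine consumer lam M S hlamS hMS O' hlamO' (iota.comp chig.rangeRestrict)
    (GR.towerOfAnData (Dfam M)) ?_
  intro h _ hheig q hq hqlam hq2
  have hM0 : M ≠ 0 := NeZero.ne M
  obtain ⟨M', hM'⟩ : q ^ 2 ∣ M := (hq.pow_dvd_iff_le_factorization hM0).mpr hq2.ge
  have hqM' : ¬ q ∣ M' := by
    rintro ⟨k, rfl⟩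
    have h3 : q ^ 3 ∣ M := ⟨k, by rw [hM']; ring⟩
    have := (hq.pow_dvd_iff_le_factorization hM0).mp h3
    omega
  have hM : M = q * (q * M') := by rw [hM']; ring
  subst hM
  have : NeZero q := ⟨hq.ne_zero⟩
  have : NeZero (q * M') := ⟨fun h0 => hM0 (by rw [h0, mul_zero])⟩
  obtain ⟨w, hw⟩ := exists_isWq2 (M := M') hq hqM'
  obtain ⟨D3⟩ := hfam q M' hq hqM' w hw
  obtain ⟨d, hd, H⟩ := key_eigen2 hq hqlam hw (hGC q M' hq hqM' w hw) D3
    (fun {ℓ} hℓ hℓN hℓM hℓp x => (hE q M' hq hqM' w hw _ _ D3 ℓ hℓ hℓN hℓM hℓp x).1)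
    (fun {ℓ} hℓ hℓN hℓM hℓp x => (hE q M' hq hqM' w hw _ _ D3 ℓ hℓ hℓN hℓM hℓp x).2)
    hg S O' chig hchig iota hlamS hMS h hheig
  obtain ⟨P, hP, -⟩ := frobLift_spec hq
  exact ⟨P, hP, d, hd, H P hP⟩

end Fermat.Agent.S36
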