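import Mathlib
import Fermat.Agent.S36.LF

/-!
# S36 / UFD: in a noetherian local domain with `m = (a, b)` and `b ^ n ∉ (a)`, `a` is prime
(complement of helper7's `LF.lean`, which assumes `Prime a`); hence the ring is a UFD.
-/

set_option autoImplicit false

namespace Fermat.Agent.S36

open IsLocalRing

section
variable {A : Type*} [CommRing A] [IsDomain A] [IsNoetherianRing A] [IsLocalRing A]

/-- Krull: `⋂ ((a) + (b ^ n)) = (a)`. -/
theorem mem_span_of_forall_mem_sup {a b : A} (h : maximalIdeal A = Ideal.span {a, b}) {x : A}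
    (hx : ∀ n : ℕ, x ∈ Ideal.span {a} ⊔ Ideal.span {b ^ n}) : x ∈ Ideal.span {a} := by
  have hK := Ideal.iInf_pow_smul_eq_bot_of_isLocalRing (R := A) (M := A ⧸ Ideal.span {a})
    (maximalIdeal A) (Ideal.IsPrime.ne_top inferInstance)
  have : (Ideal.Quotient.mk (Ideal.span {a}) x) ∈
      (⨅ i : ℕ, maximalIdeal A ^ i • (⊤ : Submodule A (A ⧸ Ideal.span {a}))) := by
    rw [Submodule.mem_iInf]
    intro n
    obtain ⟨y, hy, z, hz, rfl⟩ := Submodule.mem_sup.1 (hx n)
    obtain ⟨c, rfl⟩ := Ideal.mem_span_singleton'.1 hz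
    have h1 : Ideal.Quotient.mk (Ideal.span {a}) (y + c * b ^ n) =
        (b ^ n) • (Ideal.Quotient.mk (Ideal.span {a}) c) := by
      rw [map_add, Ideal.Quotient.eq_zero_iff_mem.2 hy, zero_add, mul_comm, Algebra.smul_def]
      rfl
    rw [h1]
    refine Submodule.smul_mem_smul (Ideal.pow_mem_pow ?_ n) trivial
    rw [h]
    exact Ideal.subset_span (by simp)
  rw [hK] at this
  exact Ideal.Quotient.eq_zero_iff_mem.1 ((Submodule.mem_bot _).1 this)

/-- every `x ∉ (a)` is `unit * b ^ n` modulo `a`. -/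
theorem exists_unit_mul_pow_mod {a b : A} (h : maximalIdeal A = Ideal.span {a, b}) {x : A}
    (hx : x ∉ Ideal.span {a}) :
    ∃ (n : ℕ) (u : A), IsUnit u ∧ x - u * b ^ n ∈ Ideal.span {a} := by
  classical
  have hex : ∃ n : ℕ, x ∉ Ideal.span {a} ⊔ Ideal.span {b ^ n} := by
    by_contra hcon
    push Not at hcon
    exact hx (mem_span_of_forall_mem_sup h hcon)
  have h0 : x ∈ Ideal.span {a} ⊔ Ideal.span {b ^ 0} := by
    rw [pow_zero, Ideal.span_singleton_one, sup_top_eq]; trivial
  have hpos : Nat.find hex ≠ 0 := by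
    intro h00
    have := Nat.find_spec hex
    rw [h00] at this
    exact this h0
  obtain ⟨n, hn⟩ := Nat.exists_eq_succ_of_ne_zero hpos
  have hmem : x ∈ Ideal.span {a} ⊔ Ideal.span {b ^ n} := by
    by_contra hc
    have := Nat.find_min' hex hc
    omega
  have hnot : x ∉ Ideal.span {a} ⊔ Ideal.span {b ^ (n + 1)} := by
    have := Nat.find_spec hex
    rwa [hn] at this
  obtain ⟨y, hy, z, hz, rfl⟩ := Submodule.mem_sup.1 hmem
  obtain ⟨c, rfl⟩ := Ideal.mem_span_singleton'.1 hz
  refine ⟨n, c, ?_, by simpa using hy⟩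
  by_contra hc
  have hcm : c ∈ maximalIdeal A := (IsLocalRing.mem_maximalIdeal c).2 hc
  rw [h, Ideal.mem_span_pair] at hcm
  obtain ⟨r, s, rfl⟩ := hcm
  apply hnot
  have : y + (r * a + s * b) * b ^ n = (y + r * b ^ n * a) + s * b ^ (n + 1) := by ring
  rw [this]
  exact Submodule.add_mem_sup
    (add_mem hy (Ideal.mul_mem_left _ _ (Ideal.mem_span_singleton_self a)))
    (Ideal.mul_mem_left _ _ (Ideal.mem_span_singleton_self _))

/-- `a` is a prime element. -/
theorem prime_of_maximalIdeal_eq_span_pair {a b : A} (h : maximalIdeal A = Ideal.span {a, b})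
    (ha : a ≠ 0) (hb : ∀ n : ℕ, b ^ n ∉ Ideal.span {a}) : Prime a := by
  refine ⟨ha, ?_, ?_⟩
  · have : a ∈ maximalIdeal A := by rw [h]; exact Ideal.subset_span (by simp)
    exact (IsLocalRing.mem_maximalIdeal a).1 this
  · intro x y hxy
    by_contra hcon
    push Not at hcon
    obtain ⟨hx, hy⟩ := hcon
    rw [← Ideal.mem_span_singleton] at hx hy hxy
    obtain ⟨n, u, hu, hxu⟩ := exists_unit_mul_pow_mod h hx
    obtain ⟨k, v, hv, hyv⟩ := exists_unit_mul_pow_mod h hy
    have h1 : u * v * b ^ (n + k) ∈ Ideal.span {a} := by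
      have : u * v * b ^ (n + k) =
          x * y - (x - u * b ^ n) * y - u * b ^ n * (y - v * b ^ k) := by ring
      rw [this]
      exact sub_mem (sub_mem hxy (Ideal.mul_mem_right _ _ hxu)) (Ideal.mul_mem_left _ _ hyv)
    exact hb (n + k) ((Ideal.unit_mul_mem_iff_mem _ (hu.mul hv)).1 h1)

/-- **UFD** (uses helper7's `LF.lean`): a noetherian local domain with `m = (a, b)`, `a ≠ 0`,
`b ^ n ∉ (a)` for all `n`. -/
theorem ufd_of_span_pair_of_pow_notMem {a b : A} (h : maximalIdeal A = Ideal.span {a, b})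
    (ha : a ≠ 0) (hb : ∀ n : ℕ, b ^ n ∉ Ideal.span {a}) : UniqueFactorizationMonoid A :=
  ufd_of_maximalIdeal_eq_span_pair a b (prime_of_maximalIdeal_eq_span_pair h ha hb) h

end

end Fermat.Agent.S36
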